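import Fermat.Agent.S25.P.Group

/-!
# S25 / layer P / P3 : `J` is separated
-/
set_option autoImplicit false
universe u
open CategoryTheory CategoryTheory.Limits AlgebraicGeometry Opposite

namespace Fermat.Agent.S25

theorem Sep_tSpec_self (k : Type u) [Field k] : tSpec k k = 𝟙 _ := by
  rw [tSpec, Algebra.algebraMap_self, CommRingCat.ofHom_id, Spec.map_id]

/-- any two `k`-morphisms to `Spec k` agree -/
theorem Sep_hom_oSpec_ext {k : Type u} [Field k] {T : Over (Spec (CommRingCat.of k))}
    (a b : T ⟶ oSpec k k) : a = b := by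
  ext1
  have ha := Over.w a
  have hb := Over.w b
  simp only [Over.mk_hom, Sep_tSpec_self] at ha hb
  exact ((Category.comp_id _).symm.trans ha).trans ((Category.comp_id _).symm.trans hb).symm

/-- the structure morphism, as a morphism of `k`-schemes -/
noncomputable def Sep_oTerm {k : Type u} [Field k] (T : Over (Spec (CommRingCat.of k))) :
    T ⟶ oSpec k k :=
  Over.homMk T.hom (by
    simp only [Over.mk_hom, Sep_tSpec_self]
    exact Category.comp_id _)

variable {k : Type u} [Field k] [IsAlgClosed k] {Γ : CurveAlg k} [hΓ : Fact Γ.IsGood]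
  {𝔐 : PicModel Γ} (D : JacData 𝔐)

/-- **P3a**. A `k`-rational point of a `k`-scheme is a closed immersion. -/
theorem isClosedImmersion_of_rational_point {k : Type u} [Field k]
    (X : Over (Spec (CommRingCat.of k))) (z : oSpec k k ⟶ X) : IsClosedImmersion z.left := by
  have h := Over.w z
  simp only [Over.mk_hom, Sep_tSpec_self] at h
  have : Subsingleton ((oSpec k k).left) :=
    inferInstanceAs (Subsingleton (PrimeSpectrum k))
  exact isClosedImmersion_of_comp_eq_id X.hom z.left h

/-- a point of `J × J` which the division map sends to zero lies on the diagonal -/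
theorem JacData.Sep_fst_eq_snd (d : oProd D.J D.J ⟶ D.J)
    (hd : ∀ (A : Type u) [CommRing A] [Algebra k A] (x y : oSpec k A ⟶ D.J),
      (D.pts A (oLift x y ≫ d)).1 = (D.pts A x).1 * ((D.pts A y).1)⁻¹)
    {T : Over (Spec (CommRingCat.of k))} (a : T ⟶ oProd D.J D.J)
    (ha : a ≫ d = Sep_oTerm T ≫ D.zero) : a ≫ oFst _ _ = a ≫ oSnd _ _ := by
  apply over_hom_ext_of_affine
  intro A _ _ x
  apply (D.pts A).injective
  apply Subtype.ext
  have h1 : x ≫ a = oLift (x ≫ a ≫ oFst _ _) (x ≫ a ≫ oSnd _ _) := by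
    apply oProd_hom_ext <;> simp
  have h2 := hd A (x ≫ a ≫ oFst _ _) (x ≫ a ≫ oSnd _ _)
  rw [← h1, Category.assoc, ha, ← Category.assoc,
    Sep_hom_oSpec_ext (x ≫ Sep_oTerm T) (oMap (kmap k A)), D.pts_zero] at h2
  exact mul_inv_eq_one.1 h2.symm

/-- the division map sends the diagonal to zero -/
theorem JacData.Sep_diag_div (d : oProd D.J D.J ⟶ D.J)
    (hd : ∀ (A : Type u) [CommRing A] [Algebra k A] (x y : oSpec k A ⟶ D.J),
      (D.pts A (oLift x y ≫ d)).1 = (D.pts A x).1 * ((D.pts A y).1)⁻¹) :
    oLift (𝟙 D.J) (𝟙 D.J) ≫ d = Sep_oTerm D.J ≫ D.zero := by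
  apply over_hom_ext_of_affine
  intro A _ _ x
  apply (D.pts A).injective
  apply Subtype.ext
  have h1 : x ≫ oLift (𝟙 D.J) (𝟙 D.J) = oLift x x := by
    apply oProd_hom_ext <;> simp
  rw [← Category.assoc, h1, hd, ← Category.assoc,
    Sep_hom_oSpec_ext (x ≫ Sep_oTerm _) (oMap (kmap k A)), D.pts_zero, mul_inv_cancel]

/-- **P3b**. -/
theorem JacData.isSeparated : IsSeparated D.J.hom := by
  obtain ⟨d, hd⟩ := D.exists_div
  have hz : IsClosedImmersion D.zero.left := isClosedImmersion_of_rational_point _ _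
  have hw : pullback.diagonal D.J.hom ≫ d.left = D.J.hom ≫ D.zero.left :=
    congrArg CommaMorphism.left (D.Sep_diag_div d hd)
  have hsq : IsPullback (pullback.diagonal D.J.hom) D.J.hom d.left D.zero.left := by
    have hsnd : ∀ s : PullbackCone d.left D.zero.left,
        s.fst ≫ (oProd D.J D.J).hom = s.snd := by
      intro s
      have h1 : D.zero.left ≫ D.J.hom = 𝟙 _ := by
        have h := Over.w D.zero
        simp only [Over.mk_hom, Sep_tSpec_self] at h
        exact h
      calc s.fst ≫ (oProd D.J D.J).hom = s.fst ≫ d.left ≫ D.J.hom := by rw [Over.w d]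
        _ = s.snd ≫ D.zero.left ≫ D.J.hom := by
            rw [← Category.assoc, s.condition, Category.assoc]
        _ = s.snd := by rw [h1]; exact Category.comp_id _
    refine ⟨⟨hw⟩, ⟨PullbackCone.IsLimit.mk _ (fun s => s.fst ≫ pullback.fst _ _) ?_ ?_ ?_⟩⟩
    · intro s
      let T : Over (Spec (CommRingCat.of k)) := Over.mk (s.fst ≫ (oProd D.J D.J).hom)
      let a : T ⟶ oProd D.J D.J := Over.homMk s.fst rfl
      have ha : a ≫ d = Sep_oTerm T ≫ D.zero := by
        ext1
        exact s.condition.trans (congrArg (· ≫ D.zero.left) (hsnd s).symm)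
      have hfs : s.fst ≫ pullback.fst D.J.hom D.J.hom = s.fst ≫ pullback.snd D.J.hom D.J.hom :=
        congrArg CommaMorphism.left (D.Sep_fst_eq_snd d hd a ha)
      apply pullback.hom_ext
      · rw [Category.assoc, pullback.diagonal_fst, Category.comp_id]
      · rw [Category.assoc, pullback.diagonal_snd, Category.comp_id, hfs]
    · intro s
      rw [← hsnd s, Category.assoc]
      rfl
    · intro s m hm _
      rw [← hm, Category.assoc, pullback.diagonal_fst, Category.comp_id]
  exact ⟨MorphismProperty.of_isPullback hsq.flip hz⟩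

end Fermat.Agent.S25
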