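import Fermat.Agent.S25.AlgInterface

/-!
# S25 / layer P / PA (PURE ALGEBRA on `PicAlg`) : additivity of the degree, `IsG` is a subgroup,
normalisation of classes
-/
set_option autoImplicit false
universe u
open TensorProduct

namespace Fermat.Agent.S25
variable {k : Type u} [Field k] {Γ : CurveAlg k} [hΓ : Fact Γ.IsGood] [IsAlgClosed k]
variable {A A' : Type u} [CommRing A] [Algebra k A] [CommRing A'] [Algebra k A']

namespace PicAlg

/-! ### PA1 : the degree is additive -/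

theorem deg_map {K K' : Type u} [Field K] [Algebra k K] [Field K'] [Algebra k K'] (f : K →ₐ[k] K')
    (n : PicAlg Γ K) : deg (map f n) = deg n := by
  unfold deg chi
  rw [h0_map, h1_map]

theorem deg_mul_prod_ptS {K : Type u} [Field K] [Algebra k K] (n : PicAlg Γ K)
    (l : List ((Γ.B₀ →ₐ[k] K) ⊕ (Γ.B₁ →ₐ[k] K))) :
    deg (n * (l.map ptS).prod) = deg n + l.length := by
  induction l generalizing n with
  | nil => simp
  | cons P l ih =>
    rw [List.map_cons, List.prod_cons, ← mul_assoc, ih]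
    rcases P with P | P
    · simp only [ptS]; rw [deg_mul_pt₀]; simp; ring
    · simp only [ptS]; rw [deg_mul_pt₁]; simp; ring

theorem deg_mul_pt₀_pow_inv {K : Type u} [Field K] [Algebra k K] (n : PicAlg Γ K)
    (P : Γ.B₀ →ₐ[k] K) (j : ℕ) : deg (n * (pt₀ P ^ j)⁻¹) = deg n - j := by
  induction j with
  | zero => simp
  | succ j ih => rw [pow_succ, mul_inv, ← mul_assoc, deg_mul_pt₀_inv, ih]; push_cast; ring

/-- over an algebraically closed field every class is a product of point classes divided by a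
power of the class of the base point -/
theorem exists_eq_prod_ptS_mul_inv {K : Type u} [Field K] [Algebra k K] [IsAlgClosed K]
    (m : PicAlg Γ K) : ∃ (l : List ((Γ.B₀ →ₐ[k] K) ⊕ (Γ.B₁ →ₐ[k] K))) (j : ℕ),
      m = (l.map ptS).prod * (pt₀ ((kmap k K).comp Γ.e₀) ^ j)⁻¹ := by
  set E : PicAlg Γ K := pt₀ ((kmap k K).comp Γ.e₀) with hE
  set j : ℕ := ((Γ.genus : ℤ) - deg m).toNat with hj
  have hdeg : deg (m * E ^ j) = deg m + j := deg_mul_pt₀_pow _ _ _
  have hj' : (Γ.genus : ℤ) - deg m ≤ j := Int.self_le_toNat _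
  have hpos : 0 < h0 (m * E ^ j) := by
    unfold deg chi at hdeg
    by_contra h
    have h' : h0 (m * E ^ j) = 0 := by omega
    rw [h'] at hdeg
    have h2 : (0 : ℤ) ≤ h1 (m * E ^ j) := Int.natCast_nonneg _
    have h3 : deg m = (h0 m : ℤ) - h1 m - (1 - (Γ.genus : ℤ)) := rfl
    push_cast at hdeg
    linarith
  obtain ⟨l₀, l₁, hl⟩ := exists_points_of_h0_pos _ hpos
  refine ⟨l₀.map Sum.inl ++ l₁.map Sum.inr, j, ?_⟩
  have hprod : ((l₀.map Sum.inl ++ l₁.map Sum.inr).map ptS).prod = m * E ^ j := by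
    rw [hl, List.map_append, List.prod_append, List.map_map, List.map_map]
    rfl
  rw [hprod, mul_inv_cancel_right]

theorem deg_mul {K : Type u} [Field K] [Algebra k K] (n n' : PicAlg Γ K) :
    deg (n * n') = deg n + deg n' := by
  let f : K →ₐ[k] AlgebraicClosure K := (Algebra.ofId K (AlgebraicClosure K)).restrictScalars k
  rw [← deg_map f (n * n'), ← deg_map f n, ← deg_map f n', map_mul]
  obtain ⟨l, j, hl⟩ := exists_eq_prod_ptS_mul_inv (PicAlg.map f n')
  have h1 : ∀ m : PicAlg Γ (AlgebraicClosure K), deg (m * PicAlg.map f n') = deg m + l.length - j := by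
    intro m
    rw [hl, ← mul_assoc, deg_mul_pt₀_pow_inv, deg_mul_prod_ptS]
  have h2 := h1 1
  rw [one_mul, deg_one] at h2
  rw [h1, h2]
  ring

theorem deg_inv {K : Type u} [Field K] [Algebra k K] (n : PicAlg Γ K) : deg n⁻¹ = - deg n := by
  have h := deg_mul n n⁻¹
  rw [mul_inv_cancel, deg_one] at h
  linarith

theorem IsG.one : (1 : PicAlg Γ A).IsG :=
  ⟨rigid_one, fun K _ _ f => by rw [map_one, deg_one]⟩

theorem IsG.mul {n n' : PicAlg Γ A} (h : n.IsG) (h' : n'.IsG) : (n * n').IsG :=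
  ⟨h.1.mul h'.1, fun K _ _ f => by rw [map_mul, deg_mul, h.2 K f, h'.2 K f, add_zero]⟩

theorem IsG.inv {n : PicAlg Γ A} (h : n.IsG) : (n⁻¹).IsG :=
  ⟨h.1.inv, fun K _ _ f => by rw [map_inv, deg_inv, h.2 K f, neg_zero]⟩

theorem IsG.map {n : PicAlg Γ A} (h : n.IsG) (f : A →ₐ[k] A') : (PicAlg.map f n).IsG :=
  ⟨h.1.map f, fun K _ _ g => by rw [map_map]; exact h.2 K _⟩

/-! ### PA2 : normalisation -/

/-- the unique rigid class which differs from `n` by a class coming from the base -/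
noncomputable def norm (n : PicAlg Γ A) : PicAlg Γ A := n * (exists_fromBase_mul_rigid n).choose

theorem norm_rigid (n : PicAlg Γ A) : (norm n).Rigid := (exists_fromBase_mul_rigid n).choose_spec.2

theorem norm_eq_of {n l : PicAlg Γ A} (hl : FromBase l) (h : (n * l).Rigid) : norm n = n * l := by
  have h0 := (exists_fromBase_mul_rigid n).choose_spec
  set l₀ := (exists_fromBase_mul_rigid n).choose with hl₀
  have h1 : FromBase (l₀ * l⁻¹) := h0.1.mul hl.inv
  have h2 : (l₀ * l⁻¹).Rigid := by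
    have : l₀ * l⁻¹ = (n * l₀) * (n * l)⁻¹ := by
      rw [mul_inv, mul_mul_mul_comm, mul_inv_cancel, one_mul]
    rw [this]
    exact h0.2.mul h.inv
  have h3 : l₀ = l := mul_inv_eq_one.mp (h1.eq_one_of_rigid h2)
  show n * l₀ = n * l
  rw [h3]

theorem norm_of_rigid {n : PicAlg Γ A} (h : n.Rigid) : norm n = n := by
  have := norm_eq_of (n := n) fromBase_one (by rwa [mul_one])
  rwa [mul_one] at this

theorem map_norm (f : A →ₐ[k] A') (n : PicAlg Γ A) : PicAlg.map f (norm n) = norm (PicAlg.map f n) := by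
  have h0 := (exists_fromBase_mul_rigid n).choose_spec
  have h1 := norm_eq_of (n := PicAlg.map f n) (h0.1.map f) (by
    rw [← map_mul]; exact h0.2.map f)
  rw [h1, ← map_mul]
  rfl

theorem norm_mul (n n' : PicAlg Γ A) : norm (n * n') = norm n * norm n' := by
  have h0 := (exists_fromBase_mul_rigid n).choose_spec
  have h0' := (exists_fromBase_mul_rigid n').choose_spec
  have h1 := norm_eq_of (n := n * n') (h0.1.mul h0'.1) (by
    rw [mul_mul_mul_comm]; exact h0.2.mul h0'.2)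
  rw [h1, mul_mul_mul_comm]
  rfl

theorem norm_of_field {K : Type u} [Field K] [Algebra k K] (n : PicAlg Γ K) : norm n = n :=
  norm_of_rigid (rigid_of_field n)

theorem Deg0.norm {n : PicAlg Γ A} (h : n.Deg0) : (PicAlg.norm n).Deg0 :=
  h.mul_fromBase (exists_fromBase_mul_rigid n).choose_spec.1

end PicAlg

/-! ### PA3 : the Abel-Jacobi classes -/

/-- the class of `O(p - e)`, normalised, for a point `p` of the chart `U₀` -/
noncomputable def aj₀ (p : Γ.B₀ →ₐ[k] A) : PicAlg Γ A :=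
  PicAlg.norm (pt₀ p * (pt₀ ((kmap k A).comp Γ.e₀))⁻¹)

/-- the class of `O(p - e)`, normalised, for a point `p` of the chart `U₁` -/
noncomputable def aj₁ (p : Γ.B₁ →ₐ[k] A) : PicAlg Γ A :=
  PicAlg.norm (pt₁ p * (pt₀ ((kmap k A).comp Γ.e₀))⁻¹)

theorem aj₀_isG (p : Γ.B₀ →ₐ[k] A) : (aj₀ p).IsG := by
  refine ⟨PicAlg.norm_rigid _, PicAlg.Deg0.norm fun K _ _ f => ?_⟩
  rw [map_mul, map_inv, map_pt₀, map_pt₀, deg_mul_pt₀_inv, ← one_mul (pt₀ (f.comp p)), deg_mul_pt₀,
    deg_one]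
  ring

theorem aj₁_isG (p : Γ.B₁ →ₐ[k] A) : (aj₁ p).IsG := by
  refine ⟨PicAlg.norm_rigid _, PicAlg.Deg0.norm fun K _ _ f => ?_⟩
  rw [map_mul, map_inv, map_pt₁, map_pt₀, deg_mul_pt₀_inv, ← one_mul (pt₁ (f.comp p)), deg_mul_pt₁,
    deg_one]
  ring

theorem map_aj₀ (f : A →ₐ[k] A') (p : Γ.B₀ →ₐ[k] A) : PicAlg.map f (aj₀ p) = aj₀ (f.comp p) := by
  unfold aj₀
  rw [PicAlg.map_norm, map_mul, map_inv, map_pt₀, map_pt₀, ← AlgHom.comp_assoc, comp_kmap]

theorem map_aj₁ (f : A →ₐ[k] A') (p : Γ.B₁ →ₐ[k] A) : PicAlg.map f (aj₁ p) = aj₁ (f.comp p) := by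
  unfold aj₁
  rw [PicAlg.map_norm, map_mul, map_inv, map_pt₁, map_pt₀, ← AlgHom.comp_assoc, comp_kmap]

theorem aj₀_eq_aj₁ (p : Γ.B₀₁ →ₐ[k] A) : aj₀ (p.comp Γ.ι₀) = aj₁ (p.comp Γ.ι₁) := by
  unfold aj₀ aj₁
  rw [pt₀_eq_pt₁]

theorem aj₀_base : aj₀ (Γ.e₀ : Γ.B₀ →ₐ[k] k) = 1 := by
  unfold aj₀
  have h : (kmap k k).comp Γ.e₀ = Γ.e₀ := by
    ext x
    simp [kmap]
  rw [h, mul_inv_cancel]
  exact PicAlg.norm_of_rigid PicAlg.rigid_one

/-- every class of degree `0` over an algebraically closed field is a product of `g` Abel-Jacobi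
classes -/
theorem exists_prod_aj {K : Type u} [Field K] [Algebra k K] [IsAlgClosed K] (n : PicAlg Γ K)
    (hn : PicAlg.deg n = 0) :
    ∃ l : List ((Γ.B₀ →ₐ[k] K) ⊕ (Γ.B₁ →ₐ[k] K)), l.length = Γ.genus ∧
      n = (l.map (Sum.elim aj₀ aj₁)).prod := by
  set E : PicAlg Γ K := pt₀ ((kmap k K).comp Γ.e₀) with hE
  have hdeg : PicAlg.deg (n * E ^ Γ.genus) = Γ.genus := by rw [deg_mul_pt₀_pow, hn, zero_add]
  have hpos : 0 < PicAlg.h0 (n * E ^ Γ.genus) := by
    unfold PicAlg.deg PicAlg.chi at hdeg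
    by_contra h
    have h' : PicAlg.h0 (n * E ^ Γ.genus) = 0 := by omega
    rw [h'] at hdeg
    have : (0 : ℤ) ≤ PicAlg.h1 (n * E ^ Γ.genus) := Int.natCast_nonneg _
    push_cast at hdeg
    linarith
  obtain ⟨l₀, l₁, hl⟩ := exists_points_of_h0_pos _ hpos
  set l : List ((Γ.B₀ →ₐ[k] K) ⊕ (Γ.B₁ →ₐ[k] K)) := l₀.map Sum.inl ++ l₁.map Sum.inr with hl'
  have hprod : (l.map ptS).prod = n * E ^ Γ.genus := by
    rw [hl, hl', List.map_append, List.prod_append, List.map_map, List.map_map]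
    rfl
  have hlen : l.length = Γ.genus := by
    have := deg_prod_ptS l
    rw [hprod, hdeg] at this
    exact_mod_cast this.symm
  refine ⟨l, hlen, ?_⟩
  have haj : ∀ P, Sum.elim aj₀ aj₁ P = ptS P * E⁻¹ := by
    rintro (P | P)
    · exact PicAlg.norm_of_field _
    · exact PicAlg.norm_of_field _
  have h2 : l.map (Sum.elim aj₀ aj₁) = l.map (fun P => ptS P * E⁻¹) :=
    List.map_congr_left (fun P _ => haj P)
  rw [h2, List.prod_map_mul, hprod, List.map_const', List.prod_replicate, hlen, inv_pow,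
    mul_inv_cancel_right]

end Fermat.Agent.S25
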