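import Fermat.Agent.S25.S.PicFunctor
import Fermat.Agent.S25.R.Cover

/-!
# S25 / layer P / P0 : morphisms of `k`-schemes via affine points; products of `k`-schemes
-/
set_option autoImplicit false
universe u
open CategoryTheory CategoryTheory.Limits AlgebraicGeometry Opposite

namespace Fermat.Agent.S25

variable {k : Type u} [Field k]

/-- every `k`-morphism `Spec A' ⟶ Spec A` comes from a unique `k`-algebra map -/
theorem oMap_bijective (A A' : Type u) [CommRing A] [Algebra k A] [CommRing A'] [Algebra k A'] :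
    Function.Bijective (oMap : (A →ₐ[k] A') → (oSpec k A' ⟶ oSpec k A)) := by
  constructor
  · intro f g h
    have h1 : Spec.map (CommRingCat.ofHom f.toRingHom) = Spec.map (CommRingCat.ofHom g.toRingHom) :=
      congrArg CommaMorphism.left h
    have h2 := congrArg CommRingCat.Hom.hom (Spec.map_injective h1)
    ext a
    exact congrArg (fun φ : A →+* A' => φ a) h2
  · intro g
    have hw : g.left ≫ tSpec k A = tSpec k A' := Over.w g
    rw [← Spec.map_preimage g.left, tSpec, tSpec, ← Spec.map_comp] at hw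
    have h2 := congrArg CommRingCat.Hom.hom (Spec.map_injective hw)
    refine ⟨{ (Spec.preimage g.left).hom with
      commutes' := fun r => congrArg (fun φ : k →+* A' => φ r) h2 }, ?_⟩
    ext : 1
    exact Spec.map_preimage g.left

theorem oMap_comp {A A' A'' : Type u} [CommRing A] [Algebra k A] [CommRing A'] [Algebra k A']
    [CommRing A''] [Algebra k A''] (f : A →ₐ[k] A') (g : A' →ₐ[k] A'') :
    oMap (g.comp f) = oMap g ≫ oMap f := by
  ext : 1
  change Spec.map (CommRingCat.ofHom (g.comp f).toRingHom) =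
    Spec.map (CommRingCat.ofHom g.toRingHom) ≫ Spec.map (CommRingCat.ofHom f.toRingHom)
  rw [← Spec.map_comp]
  rfl

theorem oMap_id (A : Type u) [CommRing A] [Algebra k A] : oMap (AlgHom.id k A) = 𝟙 (oSpec k A) := by
  ext : 1
  change Spec.map (CommRingCat.ofHom (AlgHom.id k A).toRingHom) = 𝟙 _
  rw [← Spec.map_id]
  rfl

/-- every morphism from an affine scheme to a `k`-scheme is an `A`-point for some `k`-algebra -/
theorem exists_oSpec_point (X : Over (Spec (CommRingCat.of k))) (A : Type u) [CommRing A]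
    (x : Spec (CommRingCat.of A) ⟶ X.left) :
    ∃ (_ : Algebra k A) (x' : oSpec k A ⟶ X), x'.left = x := by
  let _ : Algebra k A := (Spec.preimage (x ≫ X.hom)).hom.toAlgebra
  refine ⟨inferInstance, Over.homMk x ?_, rfl⟩
  exact (Spec.map_preimage (x ≫ X.hom)).symm

/-- **P0a**. Morphisms of `k`-schemes are determined by their effect on affine points. -/
theorem over_hom_ext_of_affine {X Y : Over (Spec (CommRingCat.of k))} (f g : X ⟶ Y)
    (h : ∀ (A : Type u) [CommRing A] [Algebra k A] (x : oSpec k A ⟶ X), x ≫ f = x ≫ g) : f = g := by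
  apply Over.OverMorphism.ext
  refine X.left.affineOpenCover.openCover.hom_ext _ _ fun i => ?_
  obtain ⟨_, x', hx'⟩ := exists_oSpec_point X (X.left.affineOpenCover.X i)
    (X.left.affineOpenCover.f i)
  have := congrArg CommaMorphism.left (h _ x')
  change x'.left ≫ f.left = x'.left ≫ g.left at this
  rw [hx'] at this
  exact this

/-- **P0b**. A natural transformation between the functors of affine points comes from a morphism. -/
theorem over_exists_hom_of_affine_nat {X Y : Over (Spec (CommRingCat.of k))}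
    (Φ : ∀ (A : Type u) [CommRing A] [Algebra k A], (oSpec k A ⟶ X) → (oSpec k A ⟶ Y))
    (hΦ : ∀ (A A' : Type u) [CommRing A] [Algebra k A] [CommRing A'] [Algebra k A']
      (f : A →ₐ[k] A') (x : oSpec k A ⟶ X), Φ A' (oMap f ≫ x) = oMap f ≫ Φ A x) :
    ∃ g : X ⟶ Y, ∀ (A : Type u) [CommRing A] [Algebra k A] (x : oSpec k A ⟶ X), Φ A x = x ≫ g := by
  choose alg x hx using fun i => exists_oSpec_point X (X.left.affineOpenCover.X i)
    (X.left.affineOpenCover.f i)
  have hcov : R.IsOpenCover x := by
    refine ⟨fun i => ?_, fun p => ?_⟩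
    · rw [hx]; exact X.left.affineOpenCover.map_prop i
    · refine ⟨X.left.affineOpenCover.idx p, ?_⟩
      rw [hx]
      exact X.left.affineOpenCover.covers p
  -- naturality with respect to arbitrary morphisms between affine points
  have hnat : ∀ (A A' : Type u) [CommRing A] [Algebra k A] [CommRing A'] [Algebra k A']
      (w : oSpec k A' ⟶ oSpec k A) (y : oSpec k A ⟶ X), Φ A' (w ≫ y) = w ≫ Φ A y := by
    intro A A' _ _ _ _ w y
    obtain ⟨f, rfl⟩ := (oMap_bijective A A').2 w
    exact hΦ A A' f y
  obtain ⟨g₀, hg₀⟩ := hcov.exists_glueHom (fun i => @Φ _ _ (alg i) (x i)) (by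
    intro i j Z a b hab
    refine over_hom_ext_of_affine _ _ fun A _ _ z => ?_
    rw [← Category.assoc, ← Category.assoc, ← @hnat _ A _ (alg i), ← @hnat _ A _ (alg j),
      Category.assoc, Category.assoc, hab])
  refine ⟨g₀, fun A _ _ y => ?_⟩
  obtain ⟨U, g', hU, hg'⟩ := hcov.exists_pullback y
  refine (R.isOpenCover_overOpenι (oSpec k A) U hU).hom_ext _ _ fun i => ?_
  refine over_hom_ext_of_affine _ _ fun A' _ _ z => ?_
  have e1 : z ≫ overOpenι (oSpec k A) (U i) ≫ Φ A y =
      Φ A' ((z ≫ overOpenι (oSpec k A) (U i)) ≫ y) := by rw [hnat, Category.assoc]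
  have e2 : (z ≫ overOpenι (oSpec k A) (U i)) ≫ y = (z ≫ g' i) ≫ x i := by
    rw [Category.assoc, Category.assoc, hg']
  have e3 : Φ A' ((z ≫ g' i) ≫ x i) = (z ≫ g' i) ≫ @Φ _ _ (alg i) (x i) :=
    @hnat _ A' _ (alg i) _ _ _ _
  rw [e1, e2, e3, ← hg₀, Category.assoc, ← Category.assoc (g' i), hg', Category.assoc]

/-! ### products of `k`-schemes -/
section prod
variable {S : Scheme.{u}}

/-- the product of two `S`-schemes -/
noncomputable def oProd (X Y : Over S) : Over S := Over.mk (pullback.fst X.hom Y.hom ≫ X.hom)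

noncomputable def oFst (X Y : Over S) : oProd X Y ⟶ X := Over.homMk (pullback.fst X.hom Y.hom) rfl

noncomputable def oSnd (X Y : Over S) : oProd X Y ⟶ Y :=
  Over.homMk (pullback.snd X.hom Y.hom) pullback.condition.symm

noncomputable def oLift {T X Y : Over S} (a : T ⟶ X) (b : T ⟶ Y) : T ⟶ oProd X Y :=
  Over.homMk (pullback.lift a.left b.left (by rw [Over.w, Over.w])) (by
    change pullback.lift a.left b.left _ ≫ pullback.fst X.hom Y.hom ≫ X.hom = T.hom
    rw [pullback.lift_fst_assoc, Over.w])

@[simp] theorem oLift_fst {T X Y : Over S} (a : T ⟶ X) (b : T ⟶ Y) : oLift a b ≫ oFst X Y = a := by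
  ext
  exact pullback.lift_fst _ _ _

@[simp] theorem oLift_snd {T X Y : Over S} (a : T ⟶ X) (b : T ⟶ Y) : oLift a b ≫ oSnd X Y = b := by
  ext
  exact pullback.lift_snd _ _ _

theorem oProd_hom_ext {T X Y : Over S} (a b : T ⟶ oProd X Y) (h₁ : a ≫ oFst X Y = b ≫ oFst X Y)
    (h₂ : a ≫ oSnd X Y = b ≫ oSnd X Y) : a = b := by
  ext
  apply pullback.hom_ext
  · exact congrArg CommaMorphism.left h₁
  · exact congrArg CommaMorphism.left h₂

end prod

end Fermat.Agent.S25
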