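import Fermat.Agent.S25.P.Jac
import Fermat.Agent.S25.P.Yoneda
import Fermat.Agent.S25.P.Norm

/-!
# S25 / layer P / P1 : `J` is of finite type and smooth
-/
set_option autoImplicit false
set_option linter.style.haveILetI false
set_option linter.unusedSectionVars false
universe u
open CategoryTheory CategoryTheory.Limits AlgebraicGeometry Opposite

namespace Fermat.Agent.S25

/-- a property local at the source can be checked on a jointly surjective family of open
immersions. -/
theorem SmoothAux.of_jointly_surjective {P : MorphismProperty Scheme.{u}}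
    [IsZariskiLocalAtSource P] {X Y : Scheme.{u}} (f : X ⟶ Y) {ι : Type u} (U : ι → Scheme.{u})
    (j : ∀ i, U i ⟶ X) [∀ i, IsOpenImmersion (j i)] (hc : ∀ p : X, ∃ i, p ∈ Set.range (j i).base)
    (H : ∀ i, P (j i ≫ f)) : P f := by
  refine IsZariskiLocalAtSource.of_iSup_eq_top (fun i ↦ (j i).opensRange) ?_ fun i ↦ ?_
  · rw [eq_top_iff]
    intro p _
    obtain ⟨i, hi⟩ := hc p
    exact TopologicalSpace.Opens.mem_iSup.mpr ⟨i, hi⟩
  · rw [← IsOpenImmersion.isoOfRangeEq_inv_fac (j i) (Scheme.Opens.ι _)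
      (congr_arg TopologicalSpace.Opens.carrier (j i).opensRange.opensRange_ι.symm), Category.assoc,
      P.cancel_left_of_respectsIso]
    exact H i

variable {k : Type u} [Field k] [IsAlgClosed k] {Γ : CurveAlg k} [hΓ : Fact Γ.IsGood]
  {𝔐 : PicModel Γ} (D : JacData 𝔐)

/-- a point of `J` whose image lies in a chart factors through the chart -/
theorem JacData.exists_fac_chart (i : D.𝔄.ι) (A : Type u) [CommRing A] [Algebra k A]
    (x : oSpec k A ⟶ D.J) (hx : Set.range x.left.base ⊆ Set.range (D.j i).left.base) :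
    ∃ φ : D.𝔄.R i →ₐ[k] A, x = oMap φ ≫ D.j i := by
  haveI := D.isOpen i
  let y : oSpec k A ⟶ oSpec k (D.𝔄.R i) :=
    Over.homMk (IsOpenImmersion.lift (D.j i).left x.left hx) (by
      rw [← Over.w (D.j i), IsOpenImmersion.lift_fac_assoc, Over.w])
  obtain ⟨φ, hφ⟩ := (oMap_bijective (k := k) (D.𝔄.R i) A).2 y
  refine ⟨φ, ?_⟩
  rw [hφ]
  ext1
  exact (IsOpenImmersion.lift_fac (D.j i).left x.left hx).symm

/-- infinitesimal lifting for the functor of points of `J` -/
theorem JacData.exists_lift_sq_zero (A : Type u) [CommRing A] [Algebra k A] (I : Ideal A)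
    (hI : I ^ 2 = ⊥) (x : oSpec k (A ⧸ I) ⟶ D.J) :
    ∃ y : oSpec k A ⟶ D.J, oMap (Ideal.Quotient.mkₐ k I) ≫ y = x := by
  obtain ⟨m, hm⟩ := exists_lift_of_sq_zero A I hI (D.pts (A ⧸ I) x).1
  have hG := (D.pts (A ⧸ I) x).2
  have hm' : PicAlg.map (Ideal.Quotient.mkₐ k I) (PicAlg.norm m) = (D.pts (A ⧸ I) x).1 := by
    rw [PicAlg.map_norm, hm, PicAlg.norm_of_rigid hG.1]
  have hdeg : (PicAlg.norm m).Deg0 := by
    intro K _ _ f
    have hf : ∀ a ∈ I, f a = 0 := by
      intro a ha
      have h1 : a ^ 2 ∈ I ^ 2 := Ideal.pow_mem_pow ha 2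
      rw [hI, Ideal.mem_bot] at h1
      have h2 : f a ^ 2 = 0 := by rw [← map_pow, h1, map_zero]
      exact pow_eq_zero_iff (two_ne_zero) |>.mp h2
    have e : f = (Ideal.Quotient.liftₐ I f hf).comp (Ideal.Quotient.mkₐ k I) := by
      ext a
      rfl
    rw [e, ← PicAlg.map_map, hm']
    exact hG.2 K _
  refine ⟨(D.pts A).symm ⟨PicAlg.norm m, PicAlg.norm_rigid m, hdeg⟩, ?_⟩
  apply (D.pts (A ⧸ I)).injective
  apply Subtype.ext
  rw [D.pts_comp, Equiv.apply_symm_apply]
  exact hm'

theorem JacData.formallySmooth_chart (i : D.𝔄.ι) : Algebra.FormallySmooth k (D.𝔄.R i) := by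
  haveI := D.isOpen i
  refine Algebra.FormallySmooth.of_comp_surjective fun B _ _ I hI g => ?_
  obtain ⟨y, hy⟩ := D.exists_lift_sq_zero B I hI (oMap g ≫ D.j i)
  have hps : Function.Surjective (PrimeSpectrum.comap (Ideal.Quotient.mk I)) := by
    intro p
    have hp : p ∈ Set.range (PrimeSpectrum.comap (Ideal.Quotient.mk I)) := by
      rw [range_comap_of_surjective _ _ Ideal.Quotient.mk_surjective, Ideal.mk_ker,
        PrimeSpectrum.mem_zeroLocus]
      have h1 : I ^ 2 ≤ p.asIdeal := hI ▸ bot_le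
      exact p.isPrime.le_of_pow_le h1
    exact hp
  have hsurj : Function.Surjective (oMap (Ideal.Quotient.mkₐ k I)).left.base := hps
  obtain ⟨φ, hφ⟩ := D.exists_fac_chart i B y (by
    rintro _ ⟨p, rfl⟩
    obtain ⟨q, rfl⟩ := hsurj p
    have h1 := congrArg (fun z : oSpec k (B ⧸ I) ⟶ D.J => z.left.base q) hy
    refine ⟨(oMap g).left.base q, ?_⟩
    exact h1.symm)
  refine ⟨φ, ?_⟩
  apply (oMap_bijective (k := k) (D.𝔄.R i) (B ⧸ I)).1
  haveI : Mono (D.j i) := by
    haveI : Mono (D.j i).left := inferInstance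
    exact Over.mono_of_mono_left _
  rw [← cancel_mono (D.j i), oMap_comp, Category.assoc, ← hφ, hy]

theorem JacData.smooth_chart (i : D.𝔄.ι) : Algebra.Smooth k (D.𝔄.R i) :=
  ⟨D.formallySmooth_chart i, Algebra.FinitePresentation.of_finiteType.mp (D.𝔄.finiteType i)⟩

set_option backward.isDefEq.respectTransparency.types false in
theorem JacData.locallyOfFiniteType : LocallyOfFiniteType D.J.hom := by
  haveI := D.isOpen
  refine SmoothAux.of_jointly_surjective (P := @LocallyOfFiniteType) D.J.hom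
    (fun i => (oSpec k (D.𝔄.R i)).left) (fun i => (D.j i).left) D.cover fun i => ?_
  rw [Over.w]
  change LocallyOfFiniteType (Spec.map (CommRingCat.ofHom (algebraMap k (D.𝔄.R i))))
  rw [HasRingHomProperty.Spec_iff (P := @LocallyOfFiniteType)]
  exact (RingHom.finiteType_algebraMap).mpr (D.𝔄.finiteType i)

set_option backward.isDefEq.respectTransparency.types false in
theorem JacData.quasiCompact : QuasiCompact D.J.hom := by
  rw [HasAffineProperty.iff_of_isAffine (P := @QuasiCompact)]
  haveI := D.𝔄.finite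
  rw [← isCompact_univ_iff]
  have h : (Set.univ : Set D.J.left) = ⋃ i, Set.range (D.j i).left.base := by
    ext p
    simpa using D.cover p
  rw [h]
  refine isCompact_iUnion fun i => ?_
  haveI : CompactSpace (oSpec k (D.𝔄.R i)).left :=
    (inferInstance : CompactSpace (Spec (CommRingCat.of (D.𝔄.R i))))
  exact isCompact_range (D.j i).left.base.hom.continuous

set_option backward.isDefEq.respectTransparency.types false in
/-- **P1**. -/
theorem JacData.smooth : Smooth D.J.hom := by
  haveI := D.isOpen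
  refine SmoothAux.of_jointly_surjective (P := @Smooth) D.J.hom
    (fun i => (oSpec k (D.𝔄.R i)).left) (fun i => (D.j i).left) D.cover fun i => ?_
  rw [Over.w]
  change Smooth (Spec.map (CommRingCat.ofHom (algebraMap k (D.𝔄.R i))))
  rw [HasRingHomProperty.Spec_iff (P := @Smooth)]
  exact (RingHom.smooth_algebraMap).mpr (D.smooth_chart i)

end Fermat.Agent.S25
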