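import Fermat.Agent.S25.P.AJ
import Fermat.Agent.S25.P.Sep
import Fermat.Agent.S25.P.Smooth
import Fermat.Agent.S25.G.Main

/-!
# S25 / layer P / P5, P6 : `J` is proper and geometrically connected
-/
set_option autoImplicit false
universe u
open CategoryTheory CategoryTheory.Limits AlgebraicGeometry Opposite NeronModelInfra

namespace Fermat.Agent.S25

variable {k : Type u} [Field k] {C : Scheme.{u}} {c : C ⟶ Spec (CommRingCat.of k)}
  {ε : SchemeHomOver (𝟙 (Spec (CommRingCat.of k))) c} {Γ : CurveAlg k}

theorem curvePow_zero_hom_isIso : IsIso (curvePow c 0).hom := by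
  have : (curvePow c 0).hom = 𝟙 (Spec (CommRingCat.of k)) := by
    show Spec.map (CommRingCat.ofHom (algebraMap k k)) = 𝟙 _
    exact Spec.map_id _
  rw [this]
  exact IsIso.id (Spec (CommRingCat.of k))

theorem curvePow_succ_hom (n : ℕ) :
    (curvePow c (n + 1)).hom = pullback.fst c (curvePow c n).hom ≫ c := rfl

theorem curvePow_succ_hom' (n : ℕ) :
    (curvePow c (n + 1)).hom = pullback.snd c (curvePow c n).hom ≫ (curvePow c n).hom :=
  pullback.condition

/-- induction principle for properties of the structure morphisms of the powers of the curve -/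
theorem curvePow_hom_mem (W : MorphismProperty Scheme.{u}) [W.IsMultiplicative]
    [W.IsStableUnderBaseChange] (hc : W c) (n : ℕ) : W (curvePow c n).hom := by
  induction n with
  | zero =>
    have := curvePow_zero_hom_isIso (c := c)
    exact W.of_isIso _
  | succ n ih =>
    rw [curvePow_succ_hom]
    exact W.comp_mem _ _ (W.pullback_fst _ _ ih) hc

/-- **P5a**. -/
theorem isProper_curvePow [IsProper c] (n : ℕ) : IsProper (curvePow c n).hom :=
  curvePow_hom_mem @IsProper inferInstance n

theorem locallyOfFiniteType_curvePow [LocallyOfFiniteType c] (n : ℕ) :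
    LocallyOfFiniteType (curvePow c n).hom :=
  curvePow_hom_mem @LocallyOfFiniteType inferInstance n

theorem geometricallyIntegral_comp_aux {X Y Z : Scheme.{u}} (f : X ⟶ Y) (g : Y ⟶ Z)
    [GeometricallyIntegral f] [GeometricallyIntegral g] [Flat f] [UniversallyOpen f]
    [LocallyOfFiniteType g] : GeometricallyIntegral (f ≫ g) := by
  refine ⟨fun K _ x W fst snd h => ?_⟩
  have h1 : IsIntegral (pullback g x) :=
    pullback_of_geometrically (GeometricallyIntegral.geometrically_isIntegral (f := g)) K x
  have h2 : IsLocallyNoetherian (pullback g x) :=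
    LocallyOfFiniteType.isLocallyNoetherian (pullback.snd g x)
  have h3 : IsIntegral (pullback f (pullback.fst g x)) := inferInstance
  exact .of_isIso ((pullbackRightPullbackFstIso g x f).hom ≫ h.isoPullback.inv)

theorem geometricallyIntegral_of_isIso_aux {X Y : Scheme.{u}} (f : X ⟶ Y) [IsIso f] :
    GeometricallyIntegral f := by
  refine ⟨fun K _ y Z fst snd h => ?_⟩
  have : IsIso snd := h.isIso_snd_of_isIso
  exact .of_isIso (inv snd)

theorem geometricallyIntegral_step_aux {S C X : Scheme.{u}} (c : C ⟶ S) (x : X ⟶ S)
    [GeometricallyIntegral c] [Flat c] [UniversallyOpen c] [GeometricallyIntegral x]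
    [LocallyOfFiniteType x] : GeometricallyIntegral (pullback.fst c x ≫ c) := by
  rw [pullback.condition]
  exact geometricallyIntegral_comp_aux _ _

/-- **P6a**. -/
theorem geometricallyIntegral_curvePow [GeometricallyIntegral c] [Flat c] [UniversallyOpen c]
    [LocallyOfFiniteType c] (n : ℕ) : GeometricallyIntegral (curvePow c n).hom := by
  induction n with
  | zero =>
    have := curvePow_zero_hom_isIso (c := c)
    exact geometricallyIntegral_of_isIso_aux _
  | succ n ih =>
    rw [curvePow_succ_hom]
    have := locallyOfFiniteType_curvePow (c := c) n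
    exact @geometricallyIntegral_step_aux _ _ _ c (curvePow c n).hom _ _ _ ih this

theorem geometricallyConnected_of_surjective_aux {X Y S : Scheme.{u}} (f : X ⟶ Y) (g : Y ⟶ S)
    [Surjective f] [GeometricallyIntegral (f ≫ g)] : GeometricallyConnected g := by
  refine ⟨fun K _ y Z fst snd h => ?_⟩
  have h1 : IsIntegral (pullback (f ≫ g) y) :=
    pullback_of_geometrically (GeometricallyIntegral.geometrically_isIntegral (f := f ≫ g)) K y
  let p : pullback (f ≫ g) y ⟶ Z :=
    h.lift (pullback.fst _ _ ≫ f) (pullback.snd _ _) (by
      rw [Category.assoc, pullback.condition])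
  have s : IsPullback (pullback.fst (f ≫ g) y) (p ≫ snd) (f ≫ g) y := by
    rw [show p ≫ snd = pullback.snd _ _ from h.lift_snd _ _ _]
    exact .of_hasPullback _ _
  have hp : IsPullback (pullback.fst (f ≫ g) y) p f fst :=
    IsPullback.of_bot s (h.lift_fst _ _ _).symm h
  have hs : Surjective p := MorphismProperty.of_isPullback (P := @Surjective) hp inferInstance
  exact p.surjective.connectedSpace p.continuous

variable [IsAlgClosed k] [hΓ : Fact Γ.IsGood] {𝔐 : PicModel Γ} (D : JacData 𝔐)

/-- **P5b**. -/
theorem JacData.isProper (P : Presentation c ε Γ) [IsProper c] : IsProper D.J.hom := by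
  have h1 := D.isSeparated
  have h2 := D.locallyOfFiniteType
  have h3 := D.quasiCompact
  have h4 := D.surjective_ajPow P
  have h5 : IsProper ((D.ajPow P Γ.genus).left ≫ D.J.hom) := by
    rw [Over.w]
    exact isProper_curvePow _
  have h6 : UniversallyClosed D.J.hom := .of_comp_surjective (D.ajPow P Γ.genus).left D.J.hom
  exact {}

/-- **P6b**. -/
theorem JacData.geometricallyConnected (P : Presentation c ε Γ) [GeometricallyIntegral c] [Flat c] [UniversallyOpen c]
    [LocallyOfFiniteType c] : GeometricallyConnected D.J.hom := by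
  have h4 := D.surjective_ajPow P
  have h5 : GeometricallyIntegral ((D.ajPow P Γ.genus).left ≫ D.J.hom) := by
    rw [Over.w]
    exact geometricallyIntegral_curvePow _
  exact geometricallyConnected_of_surjective_aux (D.ajPow P Γ.genus).left D.J.hom

end Fermat.Agent.S25
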