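import Fermat.Agent.S25.P.Model
import Fermat.Agent.S25.P.Proper

/-!
# S25 / layer P / P7 : fibrewise of degree zero ⇒ fibrewise algebraically equivalent to zero
-/
set_option autoImplicit false
universe u
open CategoryTheory CategoryTheory.Limits AlgebraicGeometry AlgebraicGeometry.RelPicard
  NeronModelInfra GoodReductionJacobian Opposite

namespace Fermat.Agent.S25

variable {k : Type u} [Field k] [IsAlgClosed k] {C : Scheme.{u}} {c : C ⟶ Spec (CommRingCat.of k)}
  {ε : SchemeHomOver (𝟙 (Spec (CommRingCat.of k))) c} {Γ : CurveAlg k} [hΓ : Fact Γ.IsGood]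

/-- the family over `X_K` obtained from a module on `C × J` and a morphism `X ⟶ J`:
restriction to a `K`-point. -/
theorem AE0b.nonempty_iso_point {X J : Over (Spec (CommRingCat.of k))} (α : X ⟶ J)
    (𝔓 : (pullback c J.hom).Modules) (K : Type u) [Field K] [Algebra k K]
    (Ψ : pullback (pullback.snd c (tSpec k K)) (pullback.snd X.hom (tSpec k K)) ⟶ pullback c J.hom)
    (hΨ₁ : Ψ ≫ pullback.fst c J.hom = pullback.fst _ _ ≫ pullback.fst c (tSpec k K))
    (hΨ₂ : Ψ ≫ pullback.snd c J.hom = pullback.snd _ _ ≫ pullback.fst X.hom (tSpec k K) ≫ α.left)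
    (x : oSpec k K ⟶ X) :
    ∃ tx : SchemeHomOver (𝟙 (Spec (CommRingCat.of K))) (pullback.snd X.hom (tSpec k K)),
      Nonempty ((Scheme.Modules.pullback (baseChangeSnd (pullback.snd c (tSpec k K)) tx)).obj
          ((Scheme.Modules.pullback Ψ).obj 𝔓) ≅
        (Scheme.Modules.pullback (pullback.fst (pullback.snd c (tSpec k K))
          (𝟙 (Spec (CommRingCat.of K))))).obj
          ((Scheme.Modules.pullback (baseChangeSnd c
            (⟨(x ≫ α).left, Over.w (x ≫ α)⟩ : SchemeHomOver (tSpec k K) J.hom))).obj 𝔓)) := by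
  let tx : SchemeHomOver (𝟙 (Spec (CommRingCat.of K))) (pullback.snd X.hom (tSpec k K)) :=
    ⟨pullback.lift x.left (𝟙 _) (by rw [Category.id_comp]; exact Over.w x), pullback.lift_snd _ _ _⟩
  refine ⟨tx, ⟨?_⟩⟩
  have hsq : baseChangeSnd (pullback.snd c (tSpec k K)) tx ≫ Ψ =
      pullback.fst (pullback.snd c (tSpec k K)) (𝟙 (Spec (CommRingCat.of K))) ≫
        baseChangeSnd c (⟨(x ≫ α).left, Over.w (x ≫ α)⟩ : SchemeHomOver (tSpec k K) J.hom) := by
    apply pullback.hom_ext
    · rw [Category.assoc, hΨ₁, ← Category.assoc, baseChangeSnd_fst', Category.assoc,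
        baseChangeSnd_fst']
    · rw [Category.assoc, hΨ₂, ← Category.assoc, baseChangeSnd_snd', Category.assoc,
        Category.assoc, baseChangeSnd_snd', ← Category.assoc (pullback.fst _ _), pullback.condition]
      simp only [tx, Category.assoc, Category.id_comp, Over.comp_left]
      rw [pullback.lift_fst_assoc]
  exact (Scheme.Modules.pullbackComp _ _).app 𝔓 ≪≫ (Scheme.Modules.pullbackCongr hsq).app 𝔓 ≪≫
    ((Scheme.Modules.pullbackComp _ _).app 𝔓).symm

/-- **P7d**. -/
theorem isAlgEquivZero_of_deg_eq_zero (P : Presentation c ε Γ) [GeometricallyIntegral c] [Flat c]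
    [UniversallyOpen c] [LocallyOfFiniteType c] (D : JacData (thePicModel P))
    (K : Type u) [Field K] [Algebra k K] [IsAlgClosed K]
    (L : (pullback c (tSpec k K)).Modules) (hL : Scheme.Modules.IsInvertible L)
    (h : PicAlg.deg (picClass P L hL) = 0) : IsAlgEquivZero (pullback.snd c (tSpec k K)) L := by
  -- the Poincaré bundle
  obtain ⟨𝔓, h𝔓, hζ⟩ := subPic.exists_rep (deg0Cut P) D.J D.ζ
  -- the family
  let X := curvePow c Γ.genus
  let α : X ⟶ D.J := D.ajPow P Γ.genus
  haveI : LocallyOfFiniteType X.hom := locallyOfFiniteType_curvePow _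
  haveI : GeometricallyIntegral X.hom := geometricallyIntegral_curvePow _
  let Ψ : pullback (pullback.snd c (tSpec k K)) (pullback.snd X.hom (tSpec k K)) ⟶
      pullback c D.J.hom :=
    pullback.lift (pullback.fst _ _ ≫ pullback.fst c (tSpec k K))
      (pullback.snd _ _ ≫ pullback.fst X.hom (tSpec k K) ≫ α.left) (by
        rw [Category.assoc, Category.assoc, Category.assoc, Over.w α, pullback.condition,
          pullback.condition, ← Category.assoc, ← Category.assoc, pullback.condition])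
  have hΨ₁ : Ψ ≫ pullback.fst c D.J.hom = pullback.fst _ _ ≫ pullback.fst c (tSpec k K) :=
    pullback.lift_fst _ _ _
  have hΨ₂ : Ψ ≫ pullback.snd c D.J.hom =
      pullback.snd _ _ ≫ pullback.fst X.hom (tSpec k K) ≫ α.left := pullback.lift_snd _ _ _
  -- a point `y` of `J` pulls `𝔓` back to the bundle it classifies
  have key : ∀ y : oSpec k K ⟶ D.J, (D.pts K y).1 =
      picClass P ((Scheme.Modules.pullback (baseChangeSnd c
        (⟨y.left, Over.w y⟩ : SchemeHomOver (tSpec k K) D.J.hom))).obj 𝔓.L)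
        (𝔓.isInvertible.pullback _) := by
    intro y
    have h1 : (thePicModel P).F.map y.op D.ζ = subPic.mk (deg0Cut P) (oSpec k K)
        (𝔓.pullbackAlong ⟨y.left, Over.w y⟩)
        ((deg0Cut P).pullback_mem _ _ ⟨y.left, Over.w y⟩ 𝔓 h𝔓) := by
      rw [← hζ]; exact subPic.map_mk (deg0Cut P) y 𝔓 h𝔓
    change ((thePicModel P).e K ((thePicModel P).F.map y.op D.ζ)).1 = _
    rw [h1, thePicModel_e_mk]
    rfl
  -- the point classifying `L`
  have hG : (picClass P L hL).IsG :=
    ⟨PicAlg.rigid_of_field _, fun K' _ _ f => by rw [PicAlg.deg_map, h]⟩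
  obtain ⟨x₁, hx₁⟩ := D.exists_lift_ajPow P ((D.pts K).symm ⟨picClass P L hL, hG⟩)
  obtain ⟨o, ho⟩ := D.exists_base_ajPow P Γ.genus
  obtain ⟨t₁, ⟨e₁⟩⟩ := AE0b.nonempty_iso_point α 𝔓.L K Ψ hΨ₁ hΨ₂ x₁
  obtain ⟨t₀, ⟨e₀⟩⟩ := AE0b.nonempty_iso_point α 𝔓.L K Ψ hΨ₁ hΨ₂ (oMap (kmap k K) ≫ o)
  refine ⟨pullback X.hom (tSpec k K), pullback.snd X.hom (tSpec k K), inferInstance, inferInstance,
    (Scheme.Modules.pullback Ψ).obj 𝔓.L, 𝔓.isInvertible.pullback _, t₀, t₁, ?_, ?_⟩
  · have h2 := key ((oMap (kmap k K) ≫ o) ≫ α)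
    have h3 : (D.pts K ((oMap (kmap k K) ≫ o) ≫ α)).1 = 1 := by
      rw [Category.assoc, ho, D.pts_zero K]
    obtain ⟨i⟩ := (picClass_eq_iff P _ _ _ _).1 (h2.symm.trans (h3.trans (picClass_unit P).symm))
    exact ⟨e₀ ≪≫ (Scheme.Modules.pullback _).mapIso i ≪≫ Scheme.Modules.pullbackUnitIso _⟩
  · have h2 := key (x₁ ≫ α)
    have h3 : (D.pts K (x₁ ≫ α)).1 = picClass P L hL := by
      rw [hx₁, Equiv.apply_symm_apply]
    obtain ⟨i⟩ := (picClass_eq_iff P _ _ _ _).1 (h2.symm.trans h3)
    exact ⟨e₁ ≪≫ (Scheme.Modules.pullback _).mapIso i⟩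

/-- **P7e**. -/
theorem fibrewiseAlgEquivZero_of_deg0 (P : Presentation c ε Γ) [GeometricallyIntegral c] [Flat c]
    [UniversallyOpen c] [LocallyOfFiniteType c] (D : JacData (thePicModel P)) {T : Scheme.{u}}
    (t : T ⟶ Spec (CommRingCat.of k)) (M : RigidifiedLineBundle c ε t)
    (h : (deg0Cut P).P t M) : FibrewiseAlgEquivZero M := by
  intro K _ _ s
  obtain ⟨inst, hst⟩ := exists_algebra_eq_tSpec K (s ≫ t)
  let s' : SchemeHomOver (tSpec k K) t := ⟨s, hst⟩
  have h0 : PicAlg.deg (picClass P (fibreMod M.L K s') (M.isInvertible.pullback _)) = 0 := h K s'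
  have h1 := isAlgEquivZero_of_deg_eq_zero P D K _ _ h0
  let e : pullback (pullback.snd c t) s ⟶ pullback c (tSpec k K) :=
    pullback.lift (pullback.fst _ _ ≫ pullback.fst c t) (pullback.snd _ _) (by
      rw [Category.assoc, pullback.condition, ← hst, ← Category.assoc, pullback.condition,
        Category.assoc])
  have he : e ≫ pullback.snd c (tSpec k K) = fibreAt c t s := pullback.lift_snd _ _ _
  have hfst : e ≫ baseChangeSnd c s' = pullback.fst (pullback.snd c t) s := by
    apply pullback.hom_ext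
    · rw [Category.assoc, baseChangeSnd_fst']
      exact pullback.lift_fst _ _ _
    · rw [Category.assoc, baseChangeSnd_snd', ← Category.assoc, he, pullback.condition]
      rfl
  refine IsAlgEquivZero.of_iso ?_ (h1.pullback e he)
  exact (Scheme.Modules.pullbackComp _ _).app M.L ≪≫ (Scheme.Modules.pullbackCongr hfst).app M.L

end Fermat.Agent.S25

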