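import Fermat.Agent.S25.S.Cut

/-!
# S25 / layer P / P7 : fibrewise algebraically equivalent to zero ⇔ fibrewise of degree zero
-/
set_option autoImplicit false
universe u
open CategoryTheory CategoryTheory.Limits AlgebraicGeometry AlgebraicGeometry.RelPicard
  NeronModelInfra GoodReductionJacobian Opposite

namespace Fermat.Agent.S25

variable {k : Type u} [Field k] [IsAlgClosed k] {C : Scheme.{u}} {c : C ⟶ Spec (CommRingCat.of k)}
  {ε : SchemeHomOver (𝟙 (Spec (CommRingCat.of k))) c} {Γ : CurveAlg k} [hΓ : Fact Γ.IsGood]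

set_option linter.unusedSectionVars false
set_option linter.unusedSimpArgs false

namespace AE0a

/-- pullback along a composite -/
noncomputable def pbComp {X Y Z : Scheme.{u}} (f : X ⟶ Y) (g : Y ⟶ Z) (h : X ⟶ Z) (e : f ≫ g = h)
    (L : Z.Modules) :
    (Scheme.Modules.pullback f).obj ((Scheme.Modules.pullback g).obj L) ≅
      (Scheme.Modules.pullback h).obj L :=
  (Scheme.Modules.pullbackComp f g).app L ≪≫ (Scheme.Modules.pullbackCongr e).app L

/-- pullback along the identity -/
noncomputable def pbId {X : Scheme.{u}} (h : X ⟶ X) (e : h = 𝟙 X) (L : X.Modules) :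
    (Scheme.Modules.pullback h).obj L ≅ L :=
  (Scheme.Modules.pullbackCongr e).app L ≪≫ (Scheme.Modules.pullbackId X).app L

theorem deg_map {K K' : Type u} [Field K] [Algebra k K] [Field K'] [Algebra k K']
    (f : K →ₐ[k] K') (n : PicAlg Γ K) : PicAlg.deg (PicAlg.map f n) = PicAlg.deg n := by
  unfold PicAlg.deg PicAlg.chi
  rw [PicAlg.h0_map, PicAlg.h1_map]

/-- the degree only depends on the isomorphism class -/
theorem deg_congr (P : Presentation c ε Γ) {K : Type u} [Field K] [Algebra k K]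
    {L L' : (pullback c (tSpec k K)).Modules} (hL : Scheme.Modules.IsInvertible L)
    (hL' : Scheme.Modules.IsInvertible L') (e : L ≅ L') :
    PicAlg.deg (picClass P L hL) = PicAlg.deg (picClass P L' hL') := by
  rw [(picClass_eq_iff P L L' hL hL').2 ⟨e⟩]

/-- affine charts of a `k`-scheme -/
theorem exists_chart {T' : Scheme.{u}} (t' : T' ⟶ Spec (CommRingCat.of k)) (x : T') :
    ∃ (A : Type u) (_ : CommRing A) (_ : Algebra k A) (i : SchemeHomOver (tSpec k A) t')
      (_ : IsOpenImmersion i.1) (p : PrimeSpectrum A), i.1.base p = x := by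
  obtain ⟨R, f, hf, y, hy⟩ := Scheme.exists_Spec_apply_eq x
  obtain ⟨inst, h⟩ := exists_algebra_eq_tSpec (k := k) R (f ≫ t')
  exact ⟨R, inferInstance, inst, ⟨f, h⟩, hf, y, hy⟩

/-- a field valued point landing in a chart factors through it -/
theorem exists_fac {T' : Scheme.{u}} {t' : T' ⟶ Spec (CommRingCat.of k)} {A : Type u} [CommRing A]
    [Algebra k A] (i : SchemeHomOver (tSpec k A) t') [IsOpenImmersion i.1]
    {K : Type u} [Field K] [Algebra k K] (s : SchemeHomOver (tSpec k K) t') (p : PrimeSpectrum A)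
    (hp : i.1.base p = s.1.base (⊥ : PrimeSpectrum K)) :
    ∃ f : A →ₐ[k] K, s = postComp i (homOver f) ∧ PrimeSpectrum.comap f.toRingHom ⊥ = p := by
  have hr : Set.range s.1 ⊆ Set.range i.1 := by
    rintro _ ⟨q, rfl⟩
    have : q = (⊥ : PrimeSpectrum K) := Subsingleton.elim _ _
    rw [this]
    exact ⟨p, hp⟩
  let g := IsOpenImmersion.lift i.1 s.1 hr
  have hg : g ≫ i.1 = s.1 := IsOpenImmersion.lift_fac _ _ _
  let φ : A →+* K := (Spec.preimage g).hom
  have hφ : Spec.map (CommRingCat.ofHom φ) = g := by simp [φ]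
  have hk : φ.comp (algebraMap k A) = algebraMap k K := by
    have h1 : g ≫ tSpec k A = tSpec k K := by rw [← i.2, ← Category.assoc, hg, s.2]
    rw [← hφ, tSpec, tSpec, ← Spec.map_comp, ← CommRingCat.ofHom_comp] at h1
    have h2 := Spec.map_injective h1
    exact congrArg CommRingCat.Hom.hom h2
  let f : A →ₐ[k] K := { φ with commutes' := fun r => RingHom.congr_fun hk r }
  have hs : s = postComp i (homOver f) := Subtype.ext (by
    change s.1 = Spec.map (CommRingCat.ofHom φ) ≫ i.1
    rw [hφ, hg])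
  refine ⟨f, hs, ?_⟩
  have hinj : Function.Injective i.1.base := i.1.isOpenEmbedding.injective
  apply hinj
  rw [hp, hs]
  rfl

/-- the degree of the fibre at a field valued point -/
noncomputable def dg (P : Presentation c ε Γ) {T' : Scheme.{u}}
    {t' : T' ⟶ Spec (CommRingCat.of k)} (𝓜 : (pullback c t').Modules)
    (h𝓜 : Scheme.Modules.IsInvertible 𝓜) (K : Type u) [Field K] [Algebra k K]
    (s : SchemeHomOver (tSpec k K) t') : ℤ :=
  PicAlg.deg (picClass P (fibreMod 𝓜 K s) (h𝓜.pullback _))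

/-- the degree in a chart -/
theorem exists_delta (P : Presentation c ε Γ) {T' : Scheme.{u}}
    {t' : T' ⟶ Spec (CommRingCat.of k)} (𝓜 : (pullback c t').Modules)
    (h𝓜 : Scheme.Modules.IsInvertible 𝓜) {A : Type u} [CommRing A]
    [Algebra k A] (i : SchemeHomOver (tSpec k A) t') :
    ∃ δ : PrimeSpectrum A → ℤ, IsLocallyConstant δ ∧
      ∀ (K : Type u) [Field K] [Algebra k K] (f : A →ₐ[k] K),
        dg P 𝓜 h𝓜 K (postComp i (homOver f)) = δ (PrimeSpectrum.comap f.toRingHom ⊥) := by
  obtain ⟨δ, hδ, h⟩ := exists_deg_locallyConstant A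
    (picClass P ((Scheme.Modules.pullback (baseChangeSnd c i)).obj 𝓜) (h𝓜.pullback _))
  refine ⟨δ, hδ, fun K _ _ f => ?_⟩
  rw [← h K f, ← picClass_pullback]
  exact deg_congr P _ _ (pbComp _ _ _ (baseChangeSnd_comp c i (homOver f)) 𝓜).symm

/-- every point is the image of a field valued point -/
theorem exists_point {T' : Scheme.{u}} (t' : T' ⟶ Spec (CommRingCat.of k)) (x : T') :
    ∃ (K : Type u) (_ : Field K) (_ : Algebra k K) (s : SchemeHomOver (tSpec k K) t'),
      s.1.base (⊥ : PrimeSpectrum K) = x := by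
  obtain ⟨A, _, _, i, _, p, rfl⟩ := exists_chart t' x
  refine ⟨p.asIdeal.ResidueField, inferInstance, inferInstance,
    postComp i (homOver (toResidue p)), ?_⟩
  have : PrimeSpectrum.comap (toResidue (k := k) p).toRingHom ⊥ = p := by
    apply PrimeSpectrum.ext
    exact Ideal.ker_algebraMap_residueField p.asIdeal
  conv_rhs => rw [← this]
  rfl

/-- local constancy -/
theorem exists_nhds (P : Presentation c ε Γ) {T' : Scheme.{u}}
    {t' : T' ⟶ Spec (CommRingCat.of k)} (𝓜 : (pullback c t').Modules)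
    (h𝓜 : Scheme.Modules.IsInvertible 𝓜) (x : T') :
    ∃ (z : ℤ) (U : Set T'), IsOpen U ∧ x ∈ U ∧
      ∀ (K : Type u) [Field K] [Algebra k K] (s : SchemeHomOver (tSpec k K) t'),
        s.1.base (⊥ : PrimeSpectrum K) ∈ U → dg P 𝓜 h𝓜 K s = z := by
  obtain ⟨A, _, _, i, _, p, rfl⟩ := exists_chart t' x
  obtain ⟨δ, hδ, h⟩ := exists_delta P 𝓜 h𝓜 i
  obtain ⟨W, hW, hpW, hc⟩ := (IsLocallyConstant.iff_exists_open δ).1 hδ p
  refine ⟨δ p, i.1.base '' W, i.1.isOpenEmbedding.isOpenMap W hW, ⟨p, hpW, rfl⟩, ?_⟩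
  rintro K _ _ s ⟨p', hp', hs⟩
  obtain ⟨f, rfl, hf⟩ := exists_fac i s p' hs
  rw [h K f, hf, hc p' hp']

end AE0a

open AE0a

/-- **P7a**. The degree is constant in a connected family: `T'` connected `k`-scheme, `𝓜` invertible
on `C × T'`, two field valued points. -/
theorem deg_eq_of_connected (P : Presentation c ε Γ) {T' : Scheme.{u}} [ConnectedSpace T']
    (t' : T' ⟶ Spec (CommRingCat.of k)) (𝓜 : (pullback c t').Modules)
    (h𝓜 : Scheme.Modules.IsInvertible 𝓜) (K K' : Type u) [Field K] [Algebra k K] [Field K']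
    [Algebra k K'] (s : SchemeHomOver (tSpec k K) t') (s' : SchemeHomOver (tSpec k K') t') :
    PicAlg.deg (picClass P (fibreMod 𝓜 K s) (h𝓜.pullback _)) =
      PicAlg.deg (picClass P (fibreMod 𝓜 K' s') (h𝓜.pullback _)) := by
  choose z U hU hxU hz using exists_nhds P 𝓜 h𝓜
  have hlc : IsLocallyConstant z := by
    rw [IsLocallyConstant.iff_exists_open]
    intro x
    refine ⟨U x, hU x, hxU x, fun x' hx' => ?_⟩
    obtain ⟨K'', _, _, s'', rfl⟩ := exists_point t' x'
    rw [← hz x K'' s'' hx', ← hz _ K'' s'' (hxU _)]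
  have h1 := hz _ K s (hxU _)
  have h2 := hz _ K' s' (hxU _)
  have h3 := hlc.apply_eq_of_preconnectedSpace (s.1.base (⊥ : PrimeSpectrum K))
    (s'.1.base (⊥ : PrimeSpectrum K'))
  exact h1.trans (h3.trans h2.symm)

/-- **P7b**. algebraically equivalent to zero ⇒ degree zero (over an algebraically closed field
`K ⊇ k`, for a module on `C × Spec K`). -/
theorem deg_eq_zero_of_isAlgEquivZero (P : Presentation c ε Γ) (K : Type u) [Field K] [Algebra k K]
    (L : (pullback c (tSpec k K)).Modules) (hL : Scheme.Modules.IsInvertible L)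
    (h : IsAlgEquivZero (pullback.snd c (tSpec k K)) L) : PicAlg.deg (picClass P L hL) = 0 := by
  obtain ⟨T', h', hft, hgi, M, hM, t₀, t₁, ⟨e₀⟩, ⟨e₁⟩⟩ := h
  have hint : IsIntegral T' :=
    hgi.geometrically_isIntegral (𝟙 _) (𝟙 T') h' (IsPullback.of_horiz_isIso ⟨by simp⟩)
  have hconn : ConnectedSpace T' := inferInstance
  let t' : T' ⟶ Spec (CommRingCat.of k) := h' ≫ tSpec k K
  let ψ : pullback c t' ⟶ pullback (pullback.snd c (tSpec k K)) h' :=
    pullback.lift (pullback.lift (pullback.fst c t') (pullback.snd c t' ≫ h')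
      (by rw [pullback.condition, Category.assoc])) (pullback.snd c t')
      (by rw [pullback.lift_snd])
  have h𝓜 : Scheme.Modules.IsInvertible ((Scheme.Modules.pullback ψ).obj M) := hM.pullback ψ
  let sec : SchemeHomOver (𝟙 (Spec (CommRingCat.of K))) h' → SchemeHomOver (tSpec k K) t' :=
    fun tt => ⟨tt.1, by rw [← Category.assoc, tt.2, Category.id_comp]⟩
  let θ : pullback c (tSpec k K) ⟶
      pullback (pullback.snd c (tSpec k K)) (𝟙 (Spec (CommRingCat.of K))) :=
    pullback.lift (𝟙 _) (pullback.snd c (tSpec k K)) (by rw [Category.id_comp, Category.comp_id])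
  have hsq : ∀ tt : SchemeHomOver (𝟙 (Spec (CommRingCat.of K))) h',
      baseChangeSnd c (sec tt) ≫ ψ = θ ≫ baseChangeSnd (pullback.snd c (tSpec k K)) tt := by
    intro tt
    apply pullback.hom_ext
    · apply pullback.hom_ext
      · simp only [baseChangeSnd, ψ, θ, sec, Category.assoc, pullback.lift_fst, pullback.lift_snd,
          pullback.lift_fst_assoc, pullback.lift_snd_assoc, Category.comp_id, Category.id_comp]
      · simp only [baseChangeSnd, ψ, θ, sec, Category.assoc, pullback.lift_fst, pullback.lift_snd,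
          pullback.lift_fst_assoc, pullback.lift_snd_assoc, Category.comp_id, Category.id_comp]
        rw [tt.2, Category.comp_id]
    · simp only [baseChangeSnd, ψ, θ, sec, Category.assoc, pullback.lift_fst, pullback.lift_snd,
          pullback.lift_fst_assoc, pullback.lift_snd_assoc, Category.comp_id, Category.id_comp]
  have key := deg_eq_of_connected P t' _ h𝓜 K K (sec t₁) (sec t₀)
  let i₀ : fibreMod ((Scheme.Modules.pullback ψ).obj M) K (sec t₀) ≅
      SheafOfModules.unit (pullback c (tSpec k K)).ringCatSheaf :=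
    pbComp _ _ _ (hsq t₀) M ≪≫ (pbComp θ _ _ rfl M).symm ≪≫
      (Scheme.Modules.pullback θ).mapIso e₀ ≪≫ Scheme.Modules.pullbackUnitIso θ
  let i₁ : fibreMod ((Scheme.Modules.pullback ψ).obj M) K (sec t₁) ≅ L :=
    pbComp _ _ _ (hsq t₁) M ≪≫ (pbComp θ _ _ rfl M).symm ≪≫
      (Scheme.Modules.pullback θ).mapIso e₁ ≪≫
      pbComp θ (pullback.fst _ _) (𝟙 _) (by simp only [θ, pullback.lift_fst]) L ≪≫ pbId (𝟙 _) rfl L
  exact (deg_congr P (h𝓜.pullback _) hL i₁).symm.trans (key.trans
    ((deg_congr P (h𝓜.pullback _) (Scheme.Modules.isInvertible_unit _) i₀).trans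
      (by rw [picClass_unit, deg_one])))

/-- **P7c**. -/
theorem deg0_of_fibrewiseAlgEquivZero (P : Presentation c ε Γ) {T : Scheme.{u}}
    (t : T ⟶ Spec (CommRingCat.of k)) (M : RigidifiedLineBundle c ε t)
    (h : FibrewiseAlgEquivZero M) : (deg0Cut P).P t M := by
  change Deg0Sch P t M.L M.isInvertible
  intro K _ _ s
  let f : K →ₐ[k] AlgebraicClosure K := IsScalarTower.toAlgHom k K (AlgebraicClosure K)
  let sb : SchemeHomOver (tSpec k (AlgebraicClosure K)) t := postComp s (homOver f)
  have h1 := h (AlgebraicClosure K) sb.1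
  let e : pullback c (tSpec k (AlgebraicClosure K)) ⟶ pullback (pullback.snd c t) sb.1 :=
    pullback.lift (baseChangeSnd c sb) (pullback.snd c (tSpec k (AlgebraicClosure K)))
      (by simp only [baseChangeSnd, pullback.lift_snd])
  have he : e ≫ fibreAt c t sb.1 = pullback.snd c (tSpec k (AlgebraicClosure K)) := by
    simp only [e, fibreAt, pullback.lift_snd]
  have h3 : IsAlgEquivZero (pullback.snd c (tSpec k (AlgebraicClosure K)))
      (fibreMod M.L (AlgebraicClosure K) sb) :=
    (h1.pullback e he).of_iso (pbComp e _ _ (by simp only [e, pullback.lift_fst]) M.L)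
  have h4 := deg_eq_zero_of_isAlgEquivZero P (AlgebraicClosure K) _ (M.isInvertible.pullback _) h3
  let i : (Scheme.Modules.pullback (baseChangeSnd c (homOver f))).obj (fibreMod M.L K s) ≅
      fibreMod M.L (AlgebraicClosure K) sb :=
    pbComp _ _ _ (baseChangeSnd_comp c s (homOver f)) M.L
  have h5 := deg_congr P ((M.isInvertible.pullback _).pullback _) (M.isInvertible.pullback _) i
  rw [picClass_pullback, deg_map] at h5
  exact h5.trans h4

end Fermat.Agent.S25
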