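import Fermat.Agent.S25.P.Group

/-!
# S25 / layer P / P4 : the Abel-Jacobi maps `C^n ⟶ J`
-/
set_option autoImplicit false
universe u
open CategoryTheory CategoryTheory.Limits AlgebraicGeometry Opposite NeronModelInfra

namespace Fermat.Agent.S25

variable {k : Type u} [Field k] {C : Scheme.{u}} {c : C ⟶ Spec (CommRingCat.of k)}
  {ε : SchemeHomOver (𝟙 (Spec (CommRingCat.of k))) c} {Γ : CurveAlg k}

/-- the powers of the curve -/
noncomputable def curvePow (c : C ⟶ Spec (CommRingCat.of k)) : ℕ → Over (Spec (CommRingCat.of k))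
  | 0 => oSpec k k
  | n + 1 => oProd (Over.mk c) (curvePow c n)

/-- the charts of the curve, as morphisms of `k`-schemes -/
noncomputable def Presentation.o₀ (P : Presentation c ε Γ) : oSpec k Γ.B₀ ⟶ Over.mk c :=
  Over.homMk P.j₀ P.over₀
noncomputable def Presentation.o₁ (P : Presentation c ε Γ) : oSpec k Γ.B₁ ⟶ Over.mk c :=
  Over.homMk P.j₁ P.over₁

/-- the cover of the curve by its two charts -/
noncomputable def Presentation.cover₂ (P : Presentation c ε Γ) : C.OpenCover :=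
  Scheme.Cover.mkOfCovers Bool
    (fun b => Bool.rec (Spec (CommRingCat.of Γ.B₁)) (Spec (CommRingCat.of Γ.B₀)) b)
    (fun b => Bool.rec (motive := fun b =>
      (Bool.rec (Spec (CommRingCat.of Γ.B₁)) (Spec (CommRingCat.of Γ.B₀)) b : Scheme.{u}) ⟶ C)
      P.j₁ P.j₀ b)
    (fun x => by
      have := P.open₀
      have := P.open₁
      have hx : x ∈ P.j₀.opensRange ⊔ P.j₁.opensRange := by rw [P.cover]; trivial
      rcases hx with ⟨y, hy⟩ | ⟨y, hy⟩
      · exact ⟨true, y, hy⟩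
      · exact ⟨false, y, hy⟩)
    (fun b => by
      cases b
      · exact P.open₁
      · exact P.open₀)

/-- **P4a**. Morphisms out of the curve are glued from the two charts. -/
theorem Presentation.exists_desc (P : Presentation c ε Γ) (Y : Over (Spec (CommRingCat.of k)))
    (a₀ : oSpec k Γ.B₀ ⟶ Y) (a₁ : oSpec k Γ.B₁ ⟶ Y) (h : oMap Γ.ι₀ ≫ a₀ = oMap Γ.ι₁ ≫ a₁) :
    ∃ a : Over.mk c ⟶ Y, P.o₀ ≫ a = a₀ ∧ P.o₁ ≫ a = a₁ := by
  have := P.open₀
  have := P.open₁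
  have h' : Spec.map (CommRingCat.ofHom Γ.ι₀.toRingHom) ≫ a₀.left
      = Spec.map (CommRingCat.ofHom Γ.ι₁.toRingHom) ≫ a₁.left := congrArg CommaMorphism.left h
  have h01 : pullback.fst P.j₀ P.j₁ ≫ a₀.left = pullback.snd P.j₀ P.j₁ ≫ a₁.left := by
    rw [← cancel_epi P.isPullback.isoPullback.hom, IsPullback.isoPullback_hom_fst_assoc,
      IsPullback.isoPullback_hom_snd_assoc, h']
  have h10 : pullback.fst P.j₁ P.j₀ ≫ a₁.left = pullback.snd P.j₁ P.j₀ ≫ a₀.left := by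
    rw [← cancel_epi P.isPullback.flip.isoPullback.hom, IsPullback.isoPullback_hom_fst_assoc,
      IsPullback.isoPullback_hom_snd_assoc, h']
  let f : ∀ b, P.cover₂.X b ⟶ Y.left := fun b => Bool.rec (motive := fun b =>
      (Bool.rec (Spec (CommRingCat.of Γ.B₁)) (Spec (CommRingCat.of Γ.B₀)) b : Scheme.{u}) ⟶ Y.left)
      a₁.left a₀.left b
  have hf : ∀ x y, pullback.fst (P.cover₂.f x) (P.cover₂.f y) ≫ f x
      = pullback.snd (P.cover₂.f x) (P.cover₂.f y) ≫ f y := by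
    intro x y
    cases x <;> cases y
    · change pullback.fst P.j₁ P.j₁ ≫ a₁.left = pullback.snd P.j₁ P.j₁ ≫ a₁.left
      rw [fst_eq_snd_of_mono_eq]
    · exact h10
    · exact h01
    · change pullback.fst P.j₀ P.j₀ ≫ a₀.left = pullback.snd P.j₀ P.j₀ ≫ a₀.left
      rw [fst_eq_snd_of_mono_eq]
  have g₀ : P.j₀ ≫ P.cover₂.glueMorphisms f hf = a₀.left :=
    P.cover₂.ι_glueMorphisms f hf true
  have g₁ : P.j₁ ≫ P.cover₂.glueMorphisms f hf = a₁.left :=
    P.cover₂.ι_glueMorphisms f hf false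
  have hw : P.cover₂.glueMorphisms f hf ≫ Y.hom = c := by
    refine P.cover₂.hom_ext _ _ fun b => ?_
    cases b
    · change P.j₁ ≫ P.cover₂.glueMorphisms f hf ≫ Y.hom = P.j₁ ≫ c
      rw [reassoc_of% g₁, P.over₁]
      exact Over.w a₁
    · change P.j₀ ≫ P.cover₂.glueMorphisms f hf ≫ Y.hom = P.j₀ ≫ c
      rw [reassoc_of% g₀, P.over₀]
      exact Over.w a₀
  refine ⟨Over.homMk (P.cover₂.glueMorphisms f hf) hw, ?_, ?_⟩
  · ext
    exact g₀
  · ext
    exact g₁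

variable [IsAlgClosed k] [hΓ : Fact Γ.IsGood] {𝔐 : PicModel Γ} (D : JacData 𝔐)
  (P : Presentation c ε Γ)

/-- **P4b**. The Abel-Jacobi map of the curve. -/
theorem JacData.exists_aj : ∃ α : Over.mk c ⟶ D.J,
    (∀ (A : Type u) [CommRing A] [Algebra k A] (p : Γ.B₀ →ₐ[k] A),
      (D.pts A (oMap p ≫ P.o₀ ≫ α)).1 = aj₀ p) ∧
    (∀ (A : Type u) [CommRing A] [Algebra k A] (p : Γ.B₁ →ₐ[k] A),
      (D.pts A (oMap p ≫ P.o₁ ≫ α)).1 = aj₁ p) := by
  let a₀ : oSpec k Γ.B₀ ⟶ D.J := (D.pts Γ.B₀).symm ⟨aj₀ (AlgHom.id k Γ.B₀), aj₀_isG _⟩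
  let a₁ : oSpec k Γ.B₁ ⟶ D.J := (D.pts Γ.B₁).symm ⟨aj₁ (AlgHom.id k Γ.B₁), aj₁_isG _⟩
  have ha₀ : ∀ (A : Type u) [CommRing A] [Algebra k A] (p : Γ.B₀ →ₐ[k] A),
      (D.pts A (oMap p ≫ a₀)).1 = aj₀ p := by
    intro A _ _ p
    rw [D.pts_comp, Equiv.apply_symm_apply, map_aj₀, AlgHom.comp_id]
  have ha₁ : ∀ (A : Type u) [CommRing A] [Algebra k A] (p : Γ.B₁ →ₐ[k] A),
      (D.pts A (oMap p ≫ a₁)).1 = aj₁ p := by
    intro A _ _ p
    rw [D.pts_comp, Equiv.apply_symm_apply, map_aj₁, AlgHom.comp_id]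
  have h : oMap Γ.ι₀ ≫ a₀ = oMap Γ.ι₁ ≫ a₁ := by
    apply (D.pts Γ.B₀₁).injective
    apply Subtype.ext
    rw [ha₀, ha₁]
    have := aj₀_eq_aj₁ (Γ := Γ) (AlgHom.id k Γ.B₀₁)
    rwa [AlgHom.id_comp, AlgHom.id_comp] at this
  obtain ⟨α, hα₀, hα₁⟩ := P.exists_desc D.J a₀ a₁ h
  exact ⟨α, fun A _ _ p => by rw [hα₀, ha₀], fun A _ _ p => by rw [hα₁, ha₁]⟩

noncomputable def JacData.mul : oProd D.J D.J ⟶ D.J := D.exists_mul.choose
noncomputable def JacData.aj : Over.mk c ⟶ D.J := (D.exists_aj P).choose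

/-- the Abel-Jacobi maps of the powers of the curve -/
noncomputable def JacData.ajPow : ∀ n : ℕ, curvePow c n ⟶ D.J
  | 0 => D.zero
  | n + 1 => oLift (oFst _ _ ≫ D.aj P) (oSnd _ _ ≫ JacData.ajPow n) ≫ D.mul

theorem oLift_comp_oLift {S : Scheme.{u}} {T X Y X' Y' : Over S} (a : T ⟶ X) (b : T ⟶ Y)
    (f : X ⟶ X') (g : Y ⟶ Y') :
    oLift a b ≫ oLift (oFst X Y ≫ f) (oSnd X Y ≫ g) = oLift (a ≫ f) (b ≫ g) := by
  apply oProd_hom_ext
  · rw [Category.assoc, oLift_fst, oLift_fst, ← Category.assoc, oLift_fst]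
  · rw [Category.assoc, oLift_snd, oLift_snd, ← Category.assoc, oLift_snd]

theorem JacData.pts_mul (A : Type u) [CommRing A] [Algebra k A] (x y : oSpec k A ⟶ D.J) :
    (D.pts A (oLift x y ≫ D.mul)).1 = (D.pts A x).1 * (D.pts A y).1 :=
  D.exists_mul.choose_spec A x y

theorem JacData.pts_aj₀ (A : Type u) [CommRing A] [Algebra k A] (p : Γ.B₀ →ₐ[k] A) :
    (D.pts A ((oMap p ≫ P.o₀) ≫ D.aj P)).1 = aj₀ p := by
  rw [Category.assoc]
  exact (D.exists_aj P).choose_spec.1 A p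

theorem JacData.pts_aj₁ (A : Type u) [CommRing A] [Algebra k A] (p : Γ.B₁ →ₐ[k] A) :
    (D.pts A ((oMap p ≫ P.o₁) ≫ D.aj P)).1 = aj₁ p := by
  rw [Category.assoc]
  exact (D.exists_aj P).choose_spec.2 A p

/-- add a point of the curve to a point of `C^n` -/
noncomputable def curveCons {T : Over (Spec (CommRingCat.of k))} (n : ℕ)
    (y : T ⟶ Over.mk c) (x : T ⟶ curvePow c n) : T ⟶ curvePow c (n + 1) := oLift y x

theorem JacData.curveCons_comp_ajPow {T : Over (Spec (CommRingCat.of k))} (n : ℕ)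
    (y : T ⟶ Over.mk c) (x : T ⟶ curvePow c n) :
    curveCons n y x ≫ D.ajPow P (n + 1) = oLift (y ≫ D.aj P) (x ≫ D.ajPow P n) ≫ D.mul := by
  change oLift y x ≫ oLift (oFst _ _ ≫ D.aj P) (oSnd _ _ ≫ D.ajPow P n) ≫ D.mul = _
  rw [← Category.assoc, oLift_comp_oLift]

/-- **P4c**. -/
theorem JacData.exists_point_ajPow {K : Type u} [Field K] [Algebra k K]
    (l : List ((Γ.B₀ →ₐ[k] K) ⊕ (Γ.B₁ →ₐ[k] K))) :
    ∃ x : oSpec k K ⟶ curvePow c l.length,
      (D.pts K (x ≫ D.ajPow P l.length)).1 = (l.map (Sum.elim aj₀ aj₁)).prod := by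
  induction l with
  | nil => exact ⟨oMap (kmap k K), D.pts_zero K⟩
  | cons q l ih =>
    obtain ⟨x, hx⟩ := ih
    rcases q with p | p
    · refine ⟨curveCons l.length (oMap p ≫ P.o₀) x, ?_⟩
      change (D.pts K (curveCons l.length (oMap p ≫ P.o₀) x ≫ D.ajPow P (l.length + 1))).1 = _
      rw [D.curveCons_comp_ajPow, D.pts_mul, hx, D.pts_aj₀, List.map_cons, List.prod_cons]
      rfl
    · refine ⟨curveCons l.length (oMap p ≫ P.o₁) x, ?_⟩
      change (D.pts K (curveCons l.length (oMap p ≫ P.o₁) x ≫ D.ajPow P (l.length + 1))).1 = _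
      rw [D.curveCons_comp_ajPow, D.pts_mul, hx, D.pts_aj₁, List.map_cons, List.prod_cons]
      rfl

/-- **P4d**. `C^g ⟶ J` is surjective on points with values in algebraically closed fields. -/
theorem JacData.exists_lift_ajPow {K : Type u} [Field K] [Algebra k K] [IsAlgClosed K]
    (y : oSpec k K ⟶ D.J) : ∃ x : oSpec k K ⟶ curvePow c Γ.genus, x ≫ D.ajPow P Γ.genus = y := by
  have hdeg : PicAlg.deg (D.pts K y).1 = 0 := by
    have := (D.pts K y).2.2 K (AlgHom.id k K)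
    rwa [PicAlg.map_id] at this
  obtain ⟨l, hlen, hl⟩ := exists_prod_aj (D.pts K y).1 hdeg
  have key : ∀ m, l.length = m → ∃ x : oSpec k K ⟶ curvePow c m,
      (D.pts K (x ≫ D.ajPow P m)).1 = (l.map (Sum.elim aj₀ aj₁)).prod := by
    rintro m rfl
    exact D.exists_point_ajPow P l
  obtain ⟨x, hx⟩ := key _ hlen
  refine ⟨x, (D.pts K).injective (Subtype.ext ?_)⟩
  rw [hx, hl]

/-- **P4e**. -/
theorem JacData.surjective_ajPow : Surjective (D.ajPow P Γ.genus).left := by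
  constructor
  intro p
  let K := AlgebraicClosure (D.J.left.residueField p)
  let x : Spec (CommRingCat.of K) ⟶ D.J.left :=
    Spec.map (CommRingCat.ofHom (algebraMap (D.J.left.residueField p) K)) ≫
      D.J.left.fromSpecResidueField p
  obtain ⟨_, x', hx'⟩ := exists_oSpec_point D.J K x
  obtain ⟨z, hz⟩ := D.exists_lift_ajPow P x'
  obtain ⟨pt⟩ : Nonempty (Spec (CommRingCat.of K)) := inferInstance
  refine ⟨z.left pt, ?_⟩
  have h1 : z.left ≫ (D.ajPow P Γ.genus).left = x := by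
    rw [← hx', ← hz]
    rfl
  rw [← Scheme.Hom.comp_apply, h1, Scheme.Hom.comp_apply]
  exact Scheme.fromSpecResidueField_apply p _

/-- **P4f**. the base point of `C^n` goes to zero -/
theorem JacData.exists_base_ajPow (n : ℕ) : ∃ o : oSpec k k ⟶ curvePow c n, o ≫ D.ajPow P n = D.zero := by
  induction n with
  | zero => exact ⟨𝟙 _, Category.id_comp _⟩
  | succ n ih =>
    obtain ⟨o, ho⟩ := ih
    refine ⟨curveCons n (oMap Γ.e₀ ≫ P.o₀) o, ?_⟩
    apply (D.pts k).injective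
    apply Subtype.ext
    rw [D.curveCons_comp_ajPow, D.pts_mul, ho, D.pts_aj₀, aj₀_base, one_mul]

end Fermat.Agent.S25
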