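import Fermat.Agent.S25.P.Jac
import Fermat.Agent.S25.P.Yoneda
import Fermat.Agent.S25.Repr
import Fermat.Agent.S25.R.Sep
import Fermat.Agent.S25.S.Charts

/-!
# S25 / layer P : from the algebraic atlas to `JacData`
-/
set_option autoImplicit false
universe u
open CategoryTheory CategoryTheory.Limits AlgebraicGeometry Opposite

namespace Fermat.Agent.S25

variable {k : Type u} [Field k] {Γ : CurveAlg k} [Fact Γ.IsGood]

namespace AtlasFin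

section alg
variable {A A' : Type u} [CommRing A] [Algebra k A] [CommRing A'] [Algebra k A']

theorem lift_away (a : A) (φ : A →ₐ[k] A') (h : IsUnit (φ a)) :
    ∃ ψ : Localization.Away a →ₐ[k] A', ψ.comp (toAway a) = φ := by
  have hf : ∀ y : Submonoid.powers a, IsUnit (φ y) := by
    rintro ⟨_, m, rfl⟩
    simpa using h.pow m
  refine ⟨IsLocalization.liftAlgHom (S := Localization.Away a) hf, ?_⟩
  ext z
  simp [toAway, Algebra.ofId_apply]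

theorem comap_toResidue (p : PrimeSpectrum A) :
    PrimeSpectrum.comap (toResidue (k := k) p).toRingHom ⊥ = p := by
  ext x
  simp [toResidue, Ideal.algebraMap_residueField_eq_zero]

theorem toResidue_ne_zero {p : PrimeSpectrum A} {a : A} (ha : a ∉ p.asIdeal) :
    toResidue (k := k) p a ≠ 0 := by
  simpa [toResidue, Algebra.ofId_apply, Ideal.algebraMap_residueField_eq_zero] using ha

theorem residue_factor {K : Type u} [Field K] [Algebra k K] (ψ : A →ₐ[k] K) :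
    ∃ ψ' : (PrimeSpectrum.comap ψ.toRingHom ⊥).asIdeal.ResidueField →ₐ[k] K,
      ψ'.comp (toResidue _) = ψ := by
  have h1 : (PrimeSpectrum.comap ψ.toRingHom ⊥).asIdeal ≤ RingHom.ker ψ := by
    intro x hx
    simpa using hx
  have h2 : (PrimeSpectrum.comap ψ.toRingHom ⊥).asIdeal.primeCompl ≤
      (IsUnit.submonoid K).comap ψ := by
    intro x hx
    have : ψ x ≠ 0 := by simpa [Ideal.primeCompl] using hx
    exact isUnit_iff_ne_zero.2 this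
  refine ⟨Ideal.ResidueField.liftₐ _ ψ h1 h2, ?_⟩
  ext x
  exact Ideal.ResidueField.liftₐ_algebraMap _ _ h1 h2 _

variable (𝔄 : AlgPreAtlas Γ)

/-- the locus of a chart -/
def locus (i : 𝔄.ι) (n : PicAlg Γ A) : Set (PrimeSpectrum A) :=
  {p | 𝔄.M i p.asIdeal.ResidueField (PicAlg.map (toResidue p) n)}

theorem isOpen_locus (i : 𝔄.ι) (n : PicAlg Γ A) (hn : n.Rigid) : IsOpen (locus 𝔄 i n) := by
  rw [isOpen_iff_forall_mem_open]
  intro p hp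
  obtain ⟨a, ha, φ, hφ⟩ := 𝔄.surj i A n hn p hp
  refine ⟨PrimeSpectrum.basicOpen a, ?_, (PrimeSpectrum.basicOpen a).isOpen, ha⟩
  intro q hq
  obtain ⟨π, hπ⟩ := lift_away a (toResidue (k := k) q)
    (isUnit_iff_ne_zero.2 (toResidue_ne_zero hq))
  refine (𝔄.M_iff i _ _).2 ⟨π.comp φ, ?_⟩
  rw [← PicAlg.map_map, hφ, PicAlg.map_map, hπ]

theorem mem_locus_iff (i : 𝔄.ι) (n : PicAlg Γ A) {K : Type u} [Field K] [Algebra k K]
    (ψ : A →ₐ[k] K) :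
    PrimeSpectrum.comap ψ.toRingHom ⊥ ∈ locus 𝔄 i n ↔ 𝔄.M i K (PicAlg.map ψ n) := by
  obtain ⟨ψ', hψ'⟩ := residue_factor ψ
  change 𝔄.M i _ _ ↔ _
  rw [← 𝔄.M_map_iff i _ _ ψ', PicAlg.map_map, hψ']

/-- the locus commutes with base change -/
theorem comap_mem_locus_iff (i : 𝔄.ι) (n : PicAlg Γ A) (g : A →ₐ[k] A') (p : PrimeSpectrum A') :
    PrimeSpectrum.comap g.toRingHom p ∈ locus 𝔄 i n ↔ p ∈ locus 𝔄 i (PicAlg.map g n) := by
  have h := mem_locus_iff 𝔄 i n ((toResidue (k := k) p).comp g)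
  have h2 : PrimeSpectrum.comap ((toResidue (k := k) p).comp g).toRingHom ⊥ =
      PrimeSpectrum.comap g.toRingHom p := by
    conv_rhs => rw [← comap_toResidue (k := k) p]
    rfl
  rw [h2, ← PicAlg.map_map] at h
  exact h

end alg

section model
variable (𝔄 : AlgAtlas Γ) (𝔐 : PicModel Γ)

/-- the universal class on the chart -/
noncomputable def xi (i : 𝔄.ι) : 𝔐.F.obj (op (oSpec k (𝔄.R i))) :=
  (𝔐.e (𝔄.R i)).symm ⟨𝔄.ξ i, 𝔄.ξ_mem i⟩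

variable {𝔐} in
theorem e_ext {A : Type u} [CommRing A] [Algebra k A] (x y : 𝔐.F.obj (op (oSpec k A)))
    (h : (𝔐.e A x).1 = (𝔐.e A y).1) : x = y := (𝔐.e A).injective (Subtype.ext h)

theorem e_map_xi (i : 𝔄.ι) {A : Type u} [CommRing A] [Algebra k A] (φ : 𝔄.R i →ₐ[k] A) :
    (𝔐.e A (𝔐.F.map (oMap φ).op (xi 𝔄 𝔐 i))).1 = PicAlg.map φ (𝔄.ξ i) := by
  rw [𝔐.e_map, xi, Equiv.apply_symm_apply]

theorem inj_aff (i : 𝔄.ι) (A : Type u) [CommRing A] [Algebra k A]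
    (a b : oSpec k A ⟶ oSpec k (𝔄.R i))
    (h : 𝔐.F.map a.op (xi 𝔄 𝔐 i) = 𝔐.F.map b.op (xi 𝔄 𝔐 i)) : a = b := by
  obtain ⟨φ, rfl⟩ := (oMap_bijective _ _).2 a
  obtain ⟨ψ, rfl⟩ := (oMap_bijective _ _).2 b
  congr 1
  apply 𝔄.inj i A φ ψ
  rw [← e_map_xi 𝔄 𝔐, ← e_map_xi 𝔄 𝔐, h]

theorem inj_spec (i : 𝔄.ι) (R : CommRingCat.{u}) (t : Spec R ⟶ Spec (CommRingCat.of k))
    (a b : Over.mk t ⟶ oSpec k (𝔄.R i))
    (h : 𝔐.F.map a.op (xi 𝔄 𝔐 i) = 𝔐.F.map b.op (xi 𝔄 𝔐 i)) : a = b := by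
  obtain ⟨inst, rfl⟩ := exists_algebra_eq_tSpec R t
  exact inj_aff 𝔄 𝔐 i R a b h

theorem inj_gen (i : 𝔄.ι) (T : Over (Spec (CommRingCat.of k))) (a b : T ⟶ oSpec k (𝔄.R i))
    (h : 𝔐.F.map a.op (xi 𝔄 𝔐 i) = 𝔐.F.map b.op (xi 𝔄 𝔐 i)) : a = b := by
  obtain ⟨ι, B, f, hf⟩ := R.exists_affine_isOpenCover T
  refine hf.hom_ext a b fun x => ?_
  refine inj_spec 𝔄 𝔐 i (B x) (f x ≫ T.hom) _ _ ?_
  rw [R.map_comp_apply, R.map_comp_apply, h]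

theorem cover_aff (K : Type u) [Field K] [Algebra k K] (η : 𝔐.F.obj (op (oSpec k K))) :
    ∃ (i : 𝔄.ι) (a : oSpec k K ⟶ oSpec k (𝔄.R i)), 𝔐.F.map a.op (xi 𝔄 𝔐 i) = η := by
  obtain ⟨i, hi⟩ := 𝔄.cover K (𝔐.e K η).1 (𝔐.e K η).2.2
  obtain ⟨φ, hφ⟩ := (𝔄.M_iff i K _).1 hi
  exact ⟨i, oMap φ, e_ext _ _ (by rw [e_map_xi, hφ])⟩

theorem cover_spec (K : Type u) [Field K] (t : Spec (CommRingCat.of K) ⟶ Spec (CommRingCat.of k))
    (η : 𝔐.F.obj (op (Over.mk t))) :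
    ∃ (i : 𝔄.ι) (a : Over.mk t ⟶ oSpec k (𝔄.R i)), 𝔐.F.map a.op (xi 𝔄 𝔐 i) = η := by
  obtain ⟨inst, rfl⟩ := exists_algebra_eq_tSpec K t
  exact cover_aff 𝔄 𝔐 K η

/-- the basic opens `D(a p)`, `a p ∉ p`, cover `Spec A` -/
theorem isOpenCover_away (A : Type u) [CommRing A] [Algebra k A] (a : PrimeSpectrum A → A)
    (ha : ∀ p : PrimeSpectrum A, a p ∉ p.asIdeal) :
    R.IsOpenCover (T := oSpec k A) (Y := fun p : PrimeSpectrum A => oSpec k (Localization.Away (a p)))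
      (fun p => oMap (toAway (a p))) := by
  refine ⟨fun p => ?_, fun p => ⟨p, ?_⟩⟩
  · change IsOpenImmersion (Spec.map (CommRingCat.ofHom (algebraMap A (Localization.Away (a p)))))
    infer_instance
  · change p ∈ Set.range (PrimeSpectrum.comap (algebraMap A (Localization.Away (a p))))
    rw [PrimeSpectrum.localization_away_comap_range (Localization.Away (a p)) (a p)]
    exact ha p

/-- a class which is fibrewise in the chart `i` comes from the chart `i` -/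
theorem glue_aff (i : 𝔄.ι) (A : Type u) [CommRing A] [Algebra k A] (η : 𝔐.F.obj (op (oSpec k A)))
    (h : ∀ p : PrimeSpectrum A, p ∈ locus 𝔄.toAlgPreAtlas i (𝔐.e A η).1) :
    ∃ a : oSpec k A ⟶ oSpec k (𝔄.R i), 𝔐.F.map a.op (xi 𝔄 𝔐 i) = η := by
  choose a ha φ hφ using fun p => 𝔄.surj i A (𝔐.e A η).1 (𝔐.e A η).2.1 p (h p)
  have hc := isOpenCover_away (k := k) A a ha
  have hg : ∀ p, 𝔐.F.map (oMap (φ p)).op (xi 𝔄 𝔐 i) = 𝔐.F.map (oMap (toAway (a p))).op η := by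
    intro p
    apply e_ext
    rw [e_map_xi, hφ, 𝔐.e_map]
  obtain ⟨g, hg'⟩ := hc.exists_glueHom (fun p => oMap (φ p)) fun p q Z α β hαβ => by
    refine inj_gen 𝔄 𝔐 i Z _ _ ?_
    rw [R.map_comp_apply, R.map_comp_apply, hg, hg, ← R.map_comp_apply, ← R.map_comp_apply, hαβ]
  refine ⟨g, hc.sep_of_isSep (R.isSep_of_isZariskiSheaf₂ 𝔐.sheaf) _ _ fun p => ?_⟩
  rw [← R.map_comp_apply, hg', hg]

theorem isOpen_aff (i : 𝔄.ι) (A : Type u) [CommRing A] [Algebra k A]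
    (η : 𝔐.F.obj (op (oSpec k A))) :
    ∃ U : (Spec (CommRingCat.of A)).Opens, ∀ (A' : Type u) [CommRing A'] [Algebra k A']
      (r : oSpec k A' ⟶ oSpec k A),
      (∃ a : oSpec k A' ⟶ oSpec k (𝔄.R i), 𝔐.F.map a.op (xi 𝔄 𝔐 i) = 𝔐.F.map r.op η) ↔
        Set.range r.left.base ⊆ (U : Set (Spec (CommRingCat.of A))) := by
  refine ⟨⟨locus 𝔄.toAlgPreAtlas i (𝔐.e A η).1, isOpen_locus _ i _ (𝔐.e A η).2.1⟩, ?_⟩
  intro A' _ _ r
  obtain ⟨g, rfl⟩ := (oMap_bijective _ _).2 r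
  constructor
  · rintro ⟨a, ha⟩ _ ⟨p, rfl⟩
    obtain ⟨φ, rfl⟩ := (oMap_bijective _ _).2 a
    let p' : PrimeSpectrum A' := p
    refine (comap_mem_locus_iff 𝔄.toAlgPreAtlas i (𝔐.e A η).1 g p').2 ?_
    refine (𝔄.M_iff i _ _).2 ⟨(toResidue p').comp φ, ?_⟩
    rw [← PicAlg.map_map, ← e_map_xi 𝔄 𝔐, ha, 𝔐.e_map]
  · intro h
    apply glue_aff
    intro p
    rw [𝔐.e_map, ← comap_mem_locus_iff]
    exact h ⟨p, rfl⟩

theorem isOpen_spec (i : 𝔄.ι) (R : CommRingCat.{u}) (t : Spec R ⟶ Spec (CommRingCat.of k))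
    (η : 𝔐.F.obj (op (Over.mk t))) :
    ∃ U : (Spec R).Opens, ∀ (R' : CommRingCat.{u}) (t' : Spec R' ⟶ Spec (CommRingCat.of k))
      (r : Over.mk t' ⟶ Over.mk t),
      (∃ a : Over.mk t' ⟶ oSpec k (𝔄.R i), 𝔐.F.map a.op (xi 𝔄 𝔐 i) = 𝔐.F.map r.op η) ↔
        Set.range r.left.base ⊆ (U : Set (Spec R)) := by
  obtain ⟨inst, rfl⟩ := exists_algebra_eq_tSpec R t
  obtain ⟨U, hU⟩ := isOpen_aff 𝔄 𝔐 i R η
  refine ⟨U, fun R' t' r => ?_⟩
  obtain ⟨inst', rfl⟩ := exists_algebra_eq_tSpec R' t'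
  exact hU R' r

end model

end AtlasFin

/-- **S-Atlas**. An algebraic atlas gives an atlas of the presheaf. -/
noncomputable def AlgAtlas.toAffineAtlas [IsAlgClosed k] (𝔄 : AlgAtlas Γ) (𝔐 : PicModel Γ) :
    AffineAtlas 𝔐.F where
  ι := 𝔄.ι
  X i := oSpec k (𝔄.R i)
  ξ i := (𝔐.e (𝔄.R i)).symm ⟨𝔄.ξ i, 𝔄.ξ_mem i⟩
  inj := AtlasFin.inj_spec 𝔄 𝔐
  isOpen i R t η := by
    obtain ⟨U, hU⟩ := AtlasFin.isOpen_spec 𝔄 𝔐 i R t η
    exact ⟨U, fun R' f => hU R' (f ≫ t) (overPre (Over.mk t) f)⟩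
  cover := AtlasFin.cover_spec 𝔄 𝔐

theorem nonempty_jacData [IsAlgClosed k] (𝔐 : PicModel Γ) : Nonempty (JacData 𝔐) := by
  obtain ⟨𝔄⟩ := nonempty_algAtlas (Γ := Γ)
  haveI : Finite (𝔄.toAffineAtlas 𝔐).ι := 𝔄.finite
  haveI : Nonempty (𝔄.toAffineAtlas 𝔐).ι := by
    obtain ⟨i, -⟩ := 𝔄.cover k (1 : PicAlg Γ k)
      (fun K _ _ f => by rw [map_one, deg_one])
    exact ⟨i⟩
  obtain ⟨J, ζ, hu, j, hj, hjξ, hc⟩ :=
    exists_isUniversal_of_finite_affineAtlas 𝔐.F 𝔐.sheaf (𝔄.toAffineAtlas 𝔐)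
  exact ⟨{ J := J, ζ := ζ, univ := hu, 𝔄 := 𝔄, j := j, isOpen := hj,
           j_spec := fun i => by
            have h := hjξ i
            have h2 : (𝔐.e (𝔄.R i)) ((𝔄.toAffineAtlas 𝔐).ξ i) = ⟨𝔄.ξ i, 𝔄.ξ_mem i⟩ :=
              (𝔐.e (𝔄.R i)).apply_symm_apply _
            exact (congrArg (fun z => ((𝔐.e (𝔄.R i)) z).1) h).trans (congrArg Subtype.val h2)
           cover := hc }⟩

end Fermat.Agent.S25
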