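import Fermat.Agent.S25.P.Jac
import Fermat.Agent.S25.P.Yoneda
import Fermat.Agent.S25.R.Sep
import Fermat.Agent.S25.S.Charts

/-!
# S25 / S-Atlas : the adapter `AlgAtlas → AffineAtlas`, in terms of `oSpec`
-/
set_option autoImplicit false
set_option maxHeartbeats 1000000
universe u
open CategoryTheory CategoryTheory.Limits AlgebraicGeometry Opposite

namespace Fermat.Agent.S25
namespace ExistsAux

variable {k : Type u} [Field k] {Γ : CurveAlg k} [Fact Γ.IsGood]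
variable (𝔄 : AlgAtlas Γ) (𝔐 : PicModel Γ)

/-- the class of the chart, as an element of the presheaf -/
noncomputable def xi (i : 𝔄.ι) : 𝔐.F.obj (op (oSpec k (𝔄.R i))) :=
  (𝔐.e (𝔄.R i)).symm ⟨𝔄.ξ i, 𝔄.ξ_mem i⟩

variable {A A' : Type u} [CommRing A] [Algebra k A] [CommRing A'] [Algebra k A']

theorem e_ext {η η' : 𝔐.F.obj (op (oSpec k A))} (h : (𝔐.e A η).1 = (𝔐.e A η').1) : η = η' :=
  (𝔐.e A).injective (Subtype.ext h)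

theorem e_map_xi (i : 𝔄.ι) (φ : 𝔄.R i →ₐ[k] A) :
    (𝔐.e A (𝔐.F.map (oMap φ).op (xi 𝔄 𝔐 i))).1 = PicAlg.map φ (𝔄.ξ i) := by
  rw [𝔐.e_map, xi, Equiv.apply_symm_apply]

theorem map_xi_eq_iff (i : 𝔄.ι) (φ : 𝔄.R i →ₐ[k] A) (η : 𝔐.F.obj (op (oSpec k A))) :
    𝔐.F.map (oMap φ).op (xi 𝔄 𝔐 i) = η ↔ PicAlg.map φ (𝔄.ξ i) = (𝔐.e A η).1 := by
  constructor
  · rintro rfl
    exact (e_map_xi 𝔄 𝔐 i φ).symm
  · intro h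
    apply e_ext
    rw [e_map_xi, h]

theorem o_inj (i : 𝔄.ι) (a b : oSpec k A ⟶ oSpec k (𝔄.R i))
    (h : 𝔐.F.map a.op (xi 𝔄 𝔐 i) = 𝔐.F.map b.op (xi 𝔄 𝔐 i)) : a = b := by
  obtain ⟨φ, rfl⟩ := (oMap_bijective (𝔄.R i) A).2 a
  obtain ⟨ψ, rfl⟩ := (oMap_bijective (𝔄.R i) A).2 b
  congr 1
  apply 𝔄.inj i A
  rw [← e_map_xi 𝔄 𝔐, ← e_map_xi 𝔄 𝔐, h]

theorem o_cover (K : Type u) [Field K] [Algebra k K] (η : 𝔐.F.obj (op (oSpec k K))) :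
    ∃ (i : 𝔄.ι) (a : oSpec k K ⟶ oSpec k (𝔄.R i)), 𝔐.F.map a.op (xi 𝔄 𝔐 i) = η := by
  obtain ⟨i, hi⟩ := 𝔄.cover K (𝔐.e K η).1 (𝔐.e K η).2.2
  obtain ⟨φ, hφ⟩ := (𝔄.M_iff i K _).1 hi
  exact ⟨i, oMap φ, (map_xi_eq_iff 𝔄 𝔐 i φ η).2 hφ⟩

theorem inj_raw (i : 𝔄.ι) (R : CommRingCat.{u}) (t : Spec R ⟶ Spec (CommRingCat.of k))
    (a b : Over.mk t ⟶ oSpec k (𝔄.R i))
    (h : 𝔐.F.map a.op (xi 𝔄 𝔐 i) = 𝔐.F.map b.op (xi 𝔄 𝔐 i)) : a = b := by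
  obtain ⟨inst, rfl⟩ := exists_algebra_eq_tSpec (k := k) R t
  exact o_inj 𝔄 𝔐 i a b h

theorem cover_raw (K : Type u) [Field K] (t : Spec (CommRingCat.of K) ⟶ Spec (CommRingCat.of k))
    (η : 𝔐.F.obj (op (Over.mk t))) :
    ∃ (i : 𝔄.ι) (a : Over.mk t ⟶ oSpec k (𝔄.R i)), 𝔐.F.map a.op (xi 𝔄 𝔐 i) = η := by
  obtain ⟨inst, rfl⟩ := exists_algebra_eq_tSpec (k := k) K t
  exact o_cover 𝔄 𝔐 K η

end ExistsAux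
end Fermat.Agent.S25
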