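import Fermat.Agent.S25.P.ExistsAux

/-!
# S25 / S-Atlas : the field `isOpen` of the adapter `AlgAtlas → AffineAtlas`
-/
set_option autoImplicit false
set_option maxHeartbeats 1000000
universe u
open CategoryTheory CategoryTheory.Limits AlgebraicGeometry Opposite

namespace Fermat.Agent.S25
namespace ExistsAux

variable {k : Type u} [Field k] [IsAlgClosed k] {Γ : CurveAlg k} [Fact Γ.IsGood]
variable (𝔄 : AlgAtlas Γ) (𝔐 : PicModel Γ)
variable {A A' : Type u} [CommRing A] [Algebra k A] [CommRing A'] [Algebra k A']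

theorem oMap_left_base (f : A →ₐ[k] A') (p : PrimeSpectrum A') :
    (oMap f).left.base p = PrimeSpectrum.comap f.toRingHom p := rfl

theorem isOpenCover_away {ι : Type u} (a : ι → A)
    (h : ∀ p : PrimeSpectrum A, ∃ j, a j ∉ p.asIdeal) :
    R.IsOpenCover (fun j => oMap (toAway (k := k) (a j))) := by
  refine ⟨fun j => ?_, fun p => ?_⟩
  · change IsOpenImmersion (Spec.map (CommRingCat.ofHom (algebraMap A (Localization.Away (a j)))))
    infer_instance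
  · obtain ⟨j, hj⟩ := h p
    refine ⟨j, ?_⟩
    have h1 := PrimeSpectrum.localization_away_comap_range (Localization.Away (a j)) (a j)
    have h2 : p ∈ (PrimeSpectrum.basicOpen (a j) : Set (PrimeSpectrum A)) := hj
    rw [← h1] at h2
    exact h2

/-- global surjectivity of a chart on its locus -/
theorem o_surj (i : 𝔄.ι) (η : 𝔐.F.obj (op (oSpec k A)))
    (h : ∀ p : PrimeSpectrum A, p ∈ 𝔄.locus i (𝔐.e A η).1) :
    ∃ a : oSpec k A ⟶ oSpec k (𝔄.R i), 𝔐.F.map a.op (xi 𝔄 𝔐 i) = η := by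
  have hn : (𝔐.e A η).1.Rigid := (𝔐.e A η).2.1
  choose a ha φ hφ using fun p => 𝔄.surj i A (𝔐.e A η).1 hn p (h p)
  have hcov := isOpenCover_away (k := k) a (fun p => ⟨p, ha p⟩)
  obtain ⟨g₀, hg₀⟩ := hcov.exists_glueHom (fun p => oMap (φ p)) (by
    intro p q Z u v huv
    refine over_hom_ext_of_affine _ _ fun C _ _ z => ?_
    obtain ⟨α, hα⟩ := (oMap_bijective _ C).2 (z ≫ u)
    obtain ⟨β, hβ⟩ := (oMap_bijective _ C).2 (z ≫ v)
    rw [← Category.assoc, ← Category.assoc, ← hα, ← hβ, ← oMap_comp, ← oMap_comp]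
    congr 1
    apply 𝔄.inj i C
    have hαβ : α.comp (toAway (a p)) = β.comp (toAway (a q)) := by
      apply (oMap_bijective A C).1
      rw [oMap_comp, oMap_comp, hα, hβ, Category.assoc, Category.assoc, huv]
    rw [← PicAlg.map_map, ← PicAlg.map_map, hφ, hφ, PicAlg.map_map, PicAlg.map_map, hαβ])
  refine ⟨g₀, ?_⟩
  refine hcov.sep_of_isSep (R.isSep_of_isZariskiSheaf₂ 𝔐.sheaf) _ _ fun p => ?_
  rw [← R.map_comp_apply, hg₀]
  apply e_ext
  rw [e_map_xi, 𝔐.e_map, hφ]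

theorem o_isOpen_iff (i : 𝔄.ι) (η : 𝔐.F.obj (op (oSpec k A))) (ψ : A →ₐ[k] A') :
    (∃ a : oSpec k A' ⟶ oSpec k (𝔄.R i),
      𝔐.F.map a.op (xi 𝔄 𝔐 i) = 𝔐.F.map (oMap ψ).op η) ↔
      ∀ p' : PrimeSpectrum A', PrimeSpectrum.comap ψ.toRingHom p' ∈ 𝔄.locus i (𝔐.e A η).1 := by
  have hcomap : ∀ p' : PrimeSpectrum A', PrimeSpectrum.comap ψ.toRingHom p' =
      PrimeSpectrum.comap ((toResidue (k := k) p').comp ψ).toRingHom ⊥ := by
    intro p'
    conv_lhs => rw [← comap_toResidue (k := k) p']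
    rfl
  constructor
  · rintro ⟨a, ha⟩ p'
    obtain ⟨φ, rfl⟩ := (oMap_bijective _ A').2 a
    rw [map_xi_eq_iff, 𝔐.e_map] at ha
    rw [hcomap, AlgPreAtlas.mem_locus_iff, 𝔄.M_iff]
    exact ⟨(toResidue p').comp φ, by rw [← PicAlg.map_map, ha, PicAlg.map_map]⟩
  · intro h
    apply o_surj
    intro p'
    have := h p'
    rw [hcomap, AlgPreAtlas.mem_locus_iff, ← PicAlg.map_map] at this
    rw [𝔐.e_map]
    exact this

theorem isOpen_aux (i : 𝔄.ι) (η : 𝔐.F.obj (op (oSpec k A))) (R' : CommRingCat.{u})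
    (f : Spec R' ⟶ Spec (CommRingCat.of A)) (t' : Spec R' ⟶ Spec (CommRingCat.of k))
    (ht : f ≫ tSpec k A = t') :
    (∃ a : Over.mk t' ⟶ oSpec k (𝔄.R i), 𝔐.F.map a.op (xi 𝔄 𝔐 i) =
      𝔐.F.map (Over.homMk f ht : Over.mk t' ⟶ oSpec k A).op η) ↔
      Set.range f.base ⊆ 𝔄.locus i (𝔐.e A η).1 := by
  obtain ⟨inst, rfl⟩ := exists_algebra_eq_tSpec (k := k) R' t'
  obtain ⟨ψ, hψ⟩ := (oMap_bijective A R').2 (Over.homMk f ht)
  rw [← hψ, o_isOpen_iff]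
  have hf : f = (oMap ψ).left := by rw [hψ]; rfl
  rw [hf, Set.range_subset_iff]
  rfl

theorem isOpen_raw (i : 𝔄.ι) (R : CommRingCat.{u}) (t : Spec R ⟶ Spec (CommRingCat.of k))
    (η : 𝔐.F.obj (op (Over.mk t))) :
    ∃ U : (Spec R).Opens, ∀ (R' : CommRingCat.{u}) (f : Spec R' ⟶ Spec R),
      (∃ a : Over.mk (f ≫ t) ⟶ oSpec k (𝔄.R i), 𝔐.F.map a.op (xi 𝔄 𝔐 i) =
        𝔐.F.map (overPre (Over.mk t) f).op η) ↔ Set.range f.base ⊆ (U : Set (Spec R)) := by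
  obtain ⟨inst, rfl⟩ := exists_algebra_eq_tSpec (k := k) R t
  refine ⟨⟨𝔄.locus i (𝔐.e R η).1, 𝔄.isOpen_locus i _ (𝔐.e R η).2.1⟩, fun R' f => ?_⟩
  exact isOpen_aux 𝔄 𝔐 i η R' f _ rfl

end ExistsAux
end Fermat.Agent.S25
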