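import Mathlib

/-! # S25 / P : gluing algebra maps along a cover by basic opens -/
set_option autoImplicit false
universe u
open CategoryTheory CategoryTheory.Limits AlgebraicGeometry

namespace Fermat.Agent.S25.GlueAlg

theorem pullback_compat {R A B₁ B₂ : CommRingCat.{u}} (α₁ : A ⟶ B₁) (α₂ : A ⟶ B₂)
    (φ₁ : R ⟶ B₁) (φ₂ : R ⟶ B₂)
    (hφ : ∀ (C : CommRingCat.{u}) (u : B₁ ⟶ C) (v : B₂ ⟶ C), α₁ ≫ u = α₂ ≫ v → φ₁ ≫ u = φ₂ ≫ v) :
    pullback.fst (Spec.map α₁) (Spec.map α₂) ≫ Spec.map φ₁ =
      pullback.snd (Spec.map α₁) (Spec.map α₂) ≫ Spec.map φ₂ := by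
  let P := pullback (Spec.map α₁) (Spec.map α₂)
  have : IsAffine P := inferInstance
  let u := Spec.preimage (P.isoSpec.inv ≫ pullback.fst (Spec.map α₁) (Spec.map α₂))
  let v := Spec.preimage (P.isoSpec.inv ≫ pullback.snd (Spec.map α₁) (Spec.map α₂))
  have hu : Spec.map u = P.isoSpec.inv ≫ pullback.fst (Spec.map α₁) (Spec.map α₂) :=
    Spec.map_preimage _
  have hv : Spec.map v = P.isoSpec.inv ≫ pullback.snd (Spec.map α₁) (Spec.map α₂) :=
    Spec.map_preimage _
  have h1 := hφ _ u v (by
    apply Spec.map_injective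
    rw [Spec.map_comp, Spec.map_comp, hu, hv, Category.assoc, Category.assoc]
    congr 1
    exact pullback.condition)
  have h2 := congrArg Spec.map h1
  rw [Spec.map_comp, Spec.map_comp, hu, hv, Category.assoc, Category.assoc,
    Iso.cancel_iso_inv_left] at h2
  exact h2

theorem exists_ringHom_glue {R A : CommRingCat.{u}} {ι : Type u} (a : ι → A)
    (ha : Ideal.span (Set.range a) = ⊤)
    (φ : ∀ j, R ⟶ CommRingCat.of (Localization.Away (a j)))
    (hφ : ∀ i j (C : CommRingCat.{u}) (u : CommRingCat.of (Localization.Away (a i)) ⟶ C)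
      (v : CommRingCat.of (Localization.Away (a j)) ⟶ C),
      CommRingCat.ofHom (algebraMap A (Localization.Away (a i))) ≫ u =
        CommRingCat.ofHom (algebraMap A (Localization.Away (a j))) ≫ v → φ i ≫ u = φ j ≫ v) :
    ∃ φ₀ : R ⟶ A, ∀ j, φ₀ ≫ CommRingCat.ofHom (algebraMap A (Localization.Away (a j))) = φ j := by
  let 𝒰 := (Scheme.affineOpenCoverOfSpanRangeEqTop a ha).openCover
  have hf : ∀ i j, pullback.fst (𝒰.f i) (𝒰.f j) ≫ Spec.map (φ i) =
      pullback.snd (𝒰.f i) (𝒰.f j) ≫ Spec.map (φ j) := fun i j =>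
    pullback_compat _ _ (φ i) (φ j) (hφ i j)
  let g := 𝒰.glueMorphisms (fun j => Spec.map (φ j)) hf
  refine ⟨Spec.preimage g, fun j => ?_⟩
  apply Spec.map_injective
  rw [Spec.map_comp, Spec.map_preimage]
  exact 𝒰.ι_glueMorphisms _ hf j

theorem eq_of_away_cover {A : Type u} [CommRing A] {ι : Type u} (a : ι → A)
    (ha : Ideal.span (Set.range a) = ⊤) (x y : A)
    (h : ∀ j, algebraMap A (Localization.Away (a j)) x = algebraMap A (Localization.Away (a j)) y) :
    x = y := by
  refine Module.eq_of_isLocalized_span (Set.range a) ha (fun r => Localization.Away r.1)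
    (fun r => Algebra.linearMap A (Localization.Away r.1)) x y ?_
  rintro ⟨_, j, rfl⟩
  exact h j

/-- **Gluing.** `k`-algebra maps `R → A[1/a_j]` which agree on the overlaps glue to `R → A`. -/
theorem exists_algHom_of_away_cover {k : Type u} [CommRing k] {R A : Type u} [CommRing R]
    [Algebra k R] [CommRing A] [Algebra k A] {ι : Type u} (a : ι → A)
    (ha : Ideal.span (Set.range a) = ⊤) (φ : ∀ j, R →ₐ[k] Localization.Away (a j))
    (hφ : ∀ i j (C : Type u) [CommRing C] [Algebra k C] (u : Localization.Away (a i) →ₐ[k] C)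
      (v : Localization.Away (a j) →ₐ[k] C),
      u.comp ((Algebra.ofId A (Localization.Away (a i))).restrictScalars k) =
        v.comp ((Algebra.ofId A (Localization.Away (a j))).restrictScalars k) →
      u.comp (φ i) = v.comp (φ j)) :
    ∃ φ₀ : R →ₐ[k] A,
      ∀ j, ((Algebra.ofId A (Localization.Away (a j))).restrictScalars k).comp φ₀ = φ j := by
  obtain ⟨φ₀, hφ₀⟩ := exists_ringHom_glue (R := CommRingCat.of R) (A := CommRingCat.of A) a ha
    (fun j => CommRingCat.ofHom (φ j).toRingHom) (by
      intro i j C u v huv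
      let : Algebra k C := (u.hom.comp (algebraMap k (Localization.Away (a i)))).toAlgebra
      have huv' : ∀ x : A, u.hom (algebraMap A (Localization.Away (a i)) x) =
          v.hom (algebraMap A (Localization.Away (a j)) x) := fun x =>
        congrArg (fun f => f.hom x) huv
      let u' : Localization.Away (a i) →ₐ[k] C := { u.hom with commutes' := fun c => rfl }
      let v' : Localization.Away (a j) →ₐ[k] C := { v.hom with
        commutes' := fun c => by
          change v.hom (algebraMap k (Localization.Away (a j)) c) =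
            u.hom (algebraMap k (Localization.Away (a i)) c)
          rw [IsScalarTower.algebraMap_apply k A (Localization.Away (a j)),
            IsScalarTower.algebraMap_apply k A (Localization.Away (a i)), huv'] }
      have h1 := hφ i j C u' v' (by ext x; exact huv' x)
      ext x
      exact congrArg (fun f => f x) h1)
  have h₀ : ∀ j (x : R), algebraMap A (Localization.Away (a j)) (φ₀.hom x) = φ j x := fun j x =>
    congrArg (fun f => f.hom x) (hφ₀ j)
  refine ⟨{ φ₀.hom with
    commutes' := fun c => eq_of_away_cover a ha _ _ fun j => by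
      change algebraMap A (Localization.Away (a j)) (φ₀.hom (algebraMap k R c)) = _
      rw [h₀, AlgHom.commutes, ← IsScalarTower.algebraMap_apply] }, fun j => ?_⟩
  ext x
  exact h₀ j x

end Fermat.Agent.S25.GlueAlg
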