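import Fermat.Agent.S25.P.Jac
import Fermat.Agent.S25.P.Yoneda
import Fermat.Agent.S25.P.Norm

/-!
# S25 / layer P / P2 : the group law of `J`
-/
set_option autoImplicit false
universe u
open CategoryTheory CategoryTheory.Limits AlgebraicGeometry Opposite

namespace Fermat.Agent.S25

variable {k : Type u} [Field k] [IsAlgClosed k] {Γ : CurveAlg k} [hΓ : Fact Γ.IsGood]
  {𝔐 : PicModel Γ} (D : JacData 𝔐)

/-- the zero point -/
noncomputable def JacData.zero : oSpec k k ⟶ D.J := (D.pts k).symm ⟨1, PicAlg.IsG.one⟩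

theorem JacData.pts_zero (A : Type u) [CommRing A] [Algebra k A] :
    (D.pts A (oMap (kmap k A) ≫ D.zero)).1 = 1 := by
  rw [D.pts_comp, JacData.zero, Equiv.apply_symm_apply, map_one]

/-- **P2a**. multiplication -/
theorem JacData.exists_mul : ∃ m : oProd D.J D.J ⟶ D.J,
    ∀ (A : Type u) [CommRing A] [Algebra k A] (x y : oSpec k A ⟶ D.J),
      (D.pts A (oLift x y ≫ m)).1 = (D.pts A x).1 * (D.pts A y).1 := by
  obtain ⟨m, hm⟩ := over_exists_hom_of_affine_nat (X := oProd D.J D.J) (Y := D.J)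
    (fun A _ _ z => (D.pts A).symm ⟨(D.pts A (z ≫ oFst _ _)).1 * (D.pts A (z ≫ oSnd _ _)).1,
      PicAlg.IsG.mul (D.pts A (z ≫ oFst _ _)).2 (D.pts A (z ≫ oSnd _ _)).2⟩)
    (fun A A' _ _ _ _ f z => by
      apply (D.pts A').injective
      apply Subtype.ext
      rw [Equiv.apply_symm_apply, D.pts_comp, Equiv.apply_symm_apply]
      simp only [Category.assoc, D.pts_comp, map_mul])
  refine ⟨m, fun A _ _ x y => ?_⟩
  rw [← hm, Equiv.apply_symm_apply]
  simp only [oLift_fst, oLift_snd]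

/-- **P2b**. division -/
theorem JacData.exists_div : ∃ d : oProd D.J D.J ⟶ D.J,
    ∀ (A : Type u) [CommRing A] [Algebra k A] (x y : oSpec k A ⟶ D.J),
      (D.pts A (oLift x y ≫ d)).1 = (D.pts A x).1 * ((D.pts A y).1)⁻¹ := by
  obtain ⟨m, hm⟩ := over_exists_hom_of_affine_nat (X := oProd D.J D.J) (Y := D.J)
    (fun A _ _ z => (D.pts A).symm ⟨(D.pts A (z ≫ oFst _ _)).1 * ((D.pts A (z ≫ oSnd _ _)).1)⁻¹,
      PicAlg.IsG.mul (D.pts A (z ≫ oFst _ _)).2 (PicAlg.IsG.inv (D.pts A (z ≫ oSnd _ _)).2)⟩)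
    (fun A A' _ _ _ _ f z => by
      apply (D.pts A').injective
      apply Subtype.ext
      rw [Equiv.apply_symm_apply, D.pts_comp, Equiv.apply_symm_apply]
      simp only [Category.assoc, D.pts_comp, map_mul, map_inv])
  refine ⟨m, fun A _ _ x y => ?_⟩
  rw [← hm, Equiv.apply_symm_apply]
  simp only [oLift_fst, oLift_snd]

end Fermat.Agent.S25
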