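import Fermat.Agent.S25.S.PicFunctor
import Fermat.Agent.S25.AlgInterface

/-!
# S25 / layer P : the abstract situation (functor of points), definition of `JacData`
-/
set_option autoImplicit false
universe u
open CategoryTheory CategoryTheory.Limits AlgebraicGeometry Opposite

namespace Fermat.Agent.S25

variable {k : Type u} [Field k]

/-- A presheaf on `k`-schemes with the (partial) sheaf property, whose values on affine schemes are
identified with the algebraic functor `A ↦ {n : PicAlg Γ A // n.IsG}`. -/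
structure PicModel (Γ : CurveAlg k) [Fact Γ.IsGood] where
  F : (Over (Spec (CommRingCat.of k)))ᵒᵖ ⥤ Type (u + 1)
  sheaf : IsZariskiSheaf₂ F
  e : ∀ (A : Type u) [CommRing A] [Algebra k A],
    F.obj (op (oSpec k A)) ≃ {n : PicAlg Γ A // n.IsG}
  e_map : ∀ (A A' : Type u) [CommRing A] [Algebra k A] [CommRing A'] [Algebra k A']
    (f : A →ₐ[k] A') (x : F.obj (op (oSpec k A))),
    (e A' (F.map (oMap f).op x)).1 = PicAlg.map f (e A x).1

variable {Γ : CurveAlg k} [Fact Γ.IsGood]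

/-- A scheme representing a `PicModel`, with a finite open cover by the charts of an `AlgAtlas`. -/
structure JacData (𝔐 : PicModel Γ) where
  J : Over (Spec (CommRingCat.of k))
  ζ : 𝔐.F.obj (op J)
  univ : IsUniversal 𝔐.F J ζ
  𝔄 : AlgAtlas Γ
  j : ∀ i, oSpec k (𝔄.R i) ⟶ J
  isOpen : ∀ i, IsOpenImmersion (j i).left
  j_spec : ∀ i, (𝔐.e (𝔄.R i) (𝔐.F.map (j i).op ζ)).1 = 𝔄.ξ i
  cover : ∀ p : J.left, ∃ i, p ∈ Set.range (j i).left.base

namespace JacData
variable {𝔐 : PicModel Γ} (D : JacData 𝔐)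

/-- the functor of points of `J` on affine schemes -/
noncomputable def pts (A : Type u) [CommRing A] [Algebra k A] :
    (oSpec k A ⟶ D.J) ≃ {n : PicAlg Γ A // n.IsG} :=
  (Equiv.ofBijective (fun x : oSpec k A ⟶ D.J => 𝔐.F.map x.op D.ζ) (by
    constructor
    · intro x y hxy
      exact (D.univ _ (𝔐.F.map y.op D.ζ)).unique hxy rfl
    · intro η
      obtain ⟨g, hg, -⟩ := D.univ _ η
      exact ⟨g, hg⟩)).trans (𝔐.e A)

theorem pts_comp {A A' : Type u} [CommRing A] [Algebra k A] [CommRing A'] [Algebra k A']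
    (f : A →ₐ[k] A') (x : oSpec k A ⟶ D.J) :
    (D.pts A' (oMap f ≫ x)).1 = PicAlg.map f (D.pts A x).1 := by
  have := 𝔐.e_map A A' f (𝔐.F.map x.op D.ζ)
  change (𝔐.e A' (𝔐.F.map (oMap f ≫ x).op D.ζ)).1 = PicAlg.map f (𝔐.e A (𝔐.F.map x.op D.ζ)).1
  rw [← this, op_comp, Functor.map_comp]
  rfl

theorem pts_j (i : D.𝔄.ι) : (D.pts (D.𝔄.R i) (D.j i)).1 = D.𝔄.ξ i := D.j_spec i

end JacData

end Fermat.Agent.S25
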