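import Fermat.Agent.S25.S.Cut
import Fermat.Agent.S25.P.Exists

/-!
# S25 / layer P : the `PicModel` given by the degree `0` Picard functor
-/
set_option autoImplicit false
universe u
open CategoryTheory CategoryTheory.Limits AlgebraicGeometry AlgebraicGeometry.RelPicard
  NeronModelInfra GoodReductionJacobian Opposite

namespace Fermat.Agent.S25

variable {k : Type u} [Field k] [IsAlgClosed k] {C : Scheme.{u}} {c : C ⟶ Spec (CommRingCat.of k)}
  {ε : SchemeHomOver (𝟙 (Spec (CommRingCat.of k))) c} {Γ : CurveAlg k} [hΓ : Fact Γ.IsGood]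

noncomputable def thePicModel (P : Presentation c ε Γ) : PicModel Γ where
  F := subPic (deg0Cut P)
  sheaf := isZariskiSheaf₂_subPic P hΓ.out _ (isLocalCut_deg0Cut P)
  e := (exists_classEquiv P).choose
  e_map := (exists_classEquiv P).choose_spec.1

theorem thePicModel_e_mk (P : Presentation c ε Γ) (A : Type u) [CommRing A] [Algebra k A]
    (M : RigidifiedLineBundle c ε (tSpec k A)) (hM : (deg0Cut P).P (tSpec k A) M) :
    ((thePicModel P).e A (subPic.mk (deg0Cut P) (oSpec k A) M hM)).1 =
      picClass P M.L M.isInvertible :=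
  (exists_classEquiv P).choose_spec.2 A M hM

end Fermat.Agent.S25
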